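/-
S44lib / Ann / Datum  (helper9)  — Project LSq, block M1: the ABSTRACT ANNULUS DATUM (design + first lemmas)

`AnnDatum` extends the nodal reduction datum `S33lib.N.NRedDatum` (place map `r`, (LC), (RED)) by the
ANALYTIC structure of the points which reduce to a node: for every node `c`

* a thickness constant `pi c ∈ 𝔪_A ∖ 0` and a coordinate `z c ∈ F` (`z' = pi c / z c` is the coordinate
  seen from the second component);
* `ann : Place → Option (Fin s)` : the annulus containing a place (`ann P = none ↔ r P ≠ none`);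
* `P ↦ z(P)` is a BIJECTION of the annulus `c` onto `{t ∈ L : |pi c| < |t| < 1}`.

The analytic input is isolated in two Prop-valued hypotheses (NOT fields), in POINTWISE form:

* `Fact₁` (outer Weierstrass factorisation): for `h ≠ 0` there are `a ∈ Lˣ`, `m ∈ ℤ` with
  `|h|₁ = |a|`, `ord_{x₁ c} red₁ (h / a) = m` and, for every point `Q` of the annulus `c` which is neither
  a zero nor a pole of `h`, with `t = z(Q)`, `h(Q) = a · t ^ m · ∏_{P} (1 - z(P)/t) ^ {ord_P h} · (1 + e)`,
  `|e| < 1` (the product runs over the zeros and poles of `h` in the annulus `c`);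
* `Fact₂` (inner): the same with `z' = pi c / z c`, `V₂`, `x₂ c`.

Two further Prop-valued hypotheses:

* `GlueAnn` : the residue form of (GLUE) on ONE annulus: `f ∈ O₁ ∩ O₂` without pole in the annulus `c`
  ⟹ `red₁ f`, `red₂ f` are regular at `x₁ c`, `x₂ c` with the same value (poles in OTHER annuli allowed);
* `FactL₁`, `FactL₂` : `Fact₁`, `Fact₂` with the LEADING COEFFICIENT clause `Lead₁ c h a m` :
  `h / (a z ^ m)` reduces to a function with the value `1` at `x₁ c` (resp. `Lead₂` with `z'`).
  (`FactL_i ⟹ Fact_i`, and `FactL₁ + FactL₂ ⟹ GlueAnn`: see `Ann/Glue.lean`.)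

PROVED in `Ann/Slope.lean` from `Fact₁ + Fact₂` (no other analytic input):

* `exists_slopes` : for `h ≠ 0` and a node `c` there are `a₁ m₁ a₂ m₂` with
    - `Slope₁ c h a₁ m₁`, `Slope₂ c h a₂ m₂`  (normalising constants and node orders on both sides),
    - **per-annulus conservation**  `m₁ + m₂ = Σ_{P ∈ annulus c} ord_P h`,
    - **slope formula**  `|a₁| · ∏_P |z(P)| ^ {ord_P h} = |a₂| · |pi c| ^ m₂`.
  In additive notation (`v = -log |·|`, `e = v(pi c)`, `ρ(P) = v(z(P)) ∈ (0, e)`):
  `v₂(h) - v₁(h) = Σ_P ord_P(h) ρ(P) - e m₂ = e m₁ - Σ_P ord_P(h) (e - ρ(P))`.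
-/
import Mathlib
import Fermat.Agent.S33lib.N.Datum

set_option autoImplicit false
set_option linter.unusedSectionVars false

noncomputable section

namespace Fermat.Agent.S44lib.Ann

open AlgebraicCurve Fermat.Agent.LSb Fermat.Agent.S18lib Fermat.Agent.S33lib
open Fermat.Agent.S19lib.C

variable {L : Type*} [Field L] {A : ValuationSubring L}
variable {F : Type*} [Field F] [Algebra L F] [HasPrincipalDivisors L F]
variable {F₁ F₂ : Type*} [Field F₁] [Field F₂]
variable [Algebra (IsLocalRing.ResidueField A) F₁] [Algebra (IsLocalRing.ResidueField A) F₂]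

/-- **The abstract annulus datum**: the nodal reduction datum together with the annuli of the
points reducing to the nodes. -/
structure AnnDatum (A : ValuationSubring L) (F : Type*) [Field F] [Algebra L F]
    [HasPrincipalDivisors L F] (F₁ F₂ : Type*) [Field F₁] [Field F₂]
    [Algebra (IsLocalRing.ResidueField A) F₁] [Algebra (IsLocalRing.ResidueField A) F₂]
    extends N.NRedDatum A F F₁ F₂ where
  /-- the thickness constant of the node `c`: `z z' = pi c` -/
  pi : Fin nod.s → L
  pi_ne_zero : ∀ c, pi c ≠ 0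
  pi_lt_one : ∀ c, A.valuation (pi c) < 1
  /-- the coordinate of the annulus `c` (the outer boundary `|z| = 1` is on the first component) -/
  z : Fin nod.s → F
  /-- the annulus containing a place -/
  ann : Place L F → Option (Fin nod.s)
  ann_eq_none_iff : ∀ P, ann P = none ↔ r P ≠ none
  deg_ann : ∀ P c, ann P = some c → P.deg = 1
  z_regAt : ∀ P c, ann P = some c → RegAt P (z c)
  pi_lt_z : ∀ P c, ann P = some c → A.valuation (pi c) < A.valuation (ev P (z c))
  z_lt_one : ∀ P c, ann P = some c → A.valuation (ev P (z c)) < 1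
  z_inj : ∀ P Q c, ann P = some c → ann Q = some c → ev P (z c) = ev Q (z c) → P = Q
  z_surj : ∀ c (t : L), A.valuation (pi c) < A.valuation t → A.valuation t < 1 →
    ∃ P, ann P = some c ∧ ev P (z c) = t
  /-- `z` is a local coordinate at every point of the annulus -/
  z_ord : ∀ P c, ann P = some c → P.ord (z c - algebraMap L F (ev P (z c))) = 1
  /-- `z c` is a `V₁`-unit whose reduction is a local parameter at the node point `x₁ c` -/
  z_mem₁ : ∀ c, z c ∈ nod.V₁.O
  z_red₁ : ∀ c, nod.V₁.redF (z c) ≠ 0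
  z_ord₁ : ∀ c, (nod.x₁ c).ord (nod.V₁.redF (z c)) = 1
  /-- `z' = pi c / z c` is a `V₂`-unit whose reduction is a local parameter at the node point `x₂ c` -/
  z'_mem₂ : ∀ c, algebraMap L F (pi c) * (z c)⁻¹ ∈ nod.V₂.O
  z'_red₂ : ∀ c, nod.V₂.redF (algebraMap L F (pi c) * (z c)⁻¹) ≠ 0
  z'_ord₂ : ∀ c, (nod.x₂ c).ord (nod.V₂.redF (algebraMap L F (pi c) * (z c)⁻¹)) = 1
  /-- the value group has no gaps (true as soon as `L` has square roots) -/
  dense : ∀ a b : L, A.valuation a < A.valuation b →
    ∃ t : L, A.valuation a < A.valuation t ∧ A.valuation t < A.valuation b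

namespace AnnDatum

variable (D : AnnDatum A F F₁ F₂)

/-- the value of the coordinate at a point of the annulus `c` -/
def zval (c : Fin D.nod.s) (P : Place L F) : L := ev P (D.z c)

theorem zval_ne_zero {c : Fin D.nod.s} {P : Place L F} (h : D.ann P = some c) : D.zval c P ≠ 0 := by
  intro h0
  have h1 := D.pi_lt_z P c h
  rw [show ev P (D.z c) = D.zval c P from rfl, h0, map_zero] at h1
  exact not_lt_zero h1

/-- the part of `div h` inside the annulus `c` -/
def annDiv (c : Fin D.nod.s) (h : F) : Divisor L F :=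
  (divOf (K := L) h).filter fun P => D.ann P = some c

theorem mem_support_annDiv {c : Fin D.nod.s} {h : F} {P : Place L F} :
    P ∈ (D.annDiv c h).support ↔ P.ord h ≠ 0 ∧ D.ann P = some c := by
  unfold annDiv
  rw [Finsupp.support_filter, Finset.mem_filter, Finsupp.mem_support_iff, divOf_apply']

theorem annDiv_apply_of_mem {c : Fin D.nod.s} {h : F} {P : Place L F} (hP : D.ann P = some c) :
    D.annDiv c h P = P.ord h := by
  unfold annDiv
  rw [Finsupp.filter_apply_pos (fun P => D.ann P = some c) _ hP, divOf_apply']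

/-- the number of zeros minus the number of poles of `h` in the annulus `c` -/
def annDeg (c : Fin D.nod.s) (h : F) : ℤ := (D.annDiv c h).sum fun _ n => n

/-- the outer Blaschke product `∏_P (1 - z(P)/t) ^ {ord_P h}` -/
def outerProd (c : Fin D.nod.s) (h : F) (t : L) : L :=
  (D.annDiv c h).prod fun P n => (1 - D.zval c P / t) ^ n

/-- the inner Blaschke product `∏_P (1 - t/z(P)) ^ {ord_P h}` -/
def innerProd (c : Fin D.nod.s) (h : F) (t : L) : L :=
  (D.annDiv c h).prod fun P n => (1 - t / D.zval c P) ^ n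

/-- the radius product `∏_P |z(P)| ^ {ord_P h}` -/
def radProd (c : Fin D.nod.s) (h : F) : A.ValueGroup :=
  (D.annDiv c h).prod fun P n => A.valuation (D.zval c P) ^ n

/-- `|h|₁ = |a|` and the normalised reduction of `h` on the first component has order `m` at the
node point `x₁ c` -/
def Slope₁ (c : Fin D.nod.s) (h : F) (a : L) (m : ℤ) : Prop :=
  a ≠ 0 ∧ (algebraMap L F a)⁻¹ * h ∈ D.nod.V₁.O ∧ D.nod.V₁.redF ((algebraMap L F a)⁻¹ * h) ≠ 0 ∧
    (D.nod.x₁ c).ord (D.nod.V₁.redF ((algebraMap L F a)⁻¹ * h)) = m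

/-- `|h|₂ = |a|` and the normalised reduction of `h` on the second component has order `m` at the
node point `x₂ c` -/
def Slope₂ (c : Fin D.nod.s) (h : F) (a : L) (m : ℤ) : Prop :=
  a ≠ 0 ∧ (algebraMap L F a)⁻¹ * h ∈ D.nod.V₂.O ∧ D.nod.V₂.redF ((algebraMap L F a)⁻¹ * h) ≠ 0 ∧
    (D.nod.x₂ c).ord (D.nod.V₂.redF ((algebraMap L F a)⁻¹ * h)) = m

/-- **(FACT₁)** the outer Weierstrass factorisation on every annulus, pointwise form -/
def Fact₁ : Prop :=
  ∀ h : F, h ≠ 0 → ∀ c : Fin D.nod.s, ∃ (a : L) (m : ℤ), D.Slope₁ c h a m ∧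
    ∀ Q, D.ann Q = some c → Q.ord h = 0 →
      A.valuation (ev Q h / (a * D.zval c Q ^ m * D.outerProd c h (D.zval c Q)) - 1) < 1

/-- **(FACT₂)** the inner Weierstrass factorisation on every annulus, pointwise form -/
def Fact₂ : Prop :=
  ∀ h : F, h ≠ 0 → ∀ c : Fin D.nod.s, ∃ (a : L) (m : ℤ), D.Slope₂ c h a m ∧
    ∀ Q, D.ann Q = some c → Q.ord h = 0 →
      A.valuation (ev Q h / (a * (D.pi c / D.zval c Q) ^ m * D.innerProd c h (D.zval c Q)) - 1) < 1

/-- the inner coordinate `z' = pi c / z c` -/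
def z' (c : Fin D.nod.s) : F := algebraMap L F (D.pi c) * (D.z c)⁻¹

/-- **(GLUE-ann)** the residue form of (GLUE) on ONE annulus: a function which is integral on both
components and has no pole in the annulus `c` (poles in the other annuli are allowed) has reductions
which are regular at the two node points `x₁ c`, `x₂ c`, with the same value. -/
def GlueAnn : Prop :=
  ∀ (f : F) (c : Fin D.nod.s), f ∈ D.nod.V₁.O → f ∈ D.nod.V₂.O →
    (∀ P, D.ann P = some c → 0 ≤ P.ord f) →
    ∃ α : IsLocalRing.ResidueField A,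
      HasValueAt (D.nod.x₁ c) (D.nod.V₁.redF f) α ∧ HasValueAt (D.nod.x₂ c) (D.nod.V₂.redF f) α

/-- leading coefficient normalisation on the first component: `h / (a z ^ m)` is a `V₁`-unit whose
reduction has the value `1` at the node point `x₁ c` -/
def Lead₁ (c : Fin D.nod.s) (h : F) (a : L) (m : ℤ) : Prop :=
  HasValueAt (D.nod.x₁ c) (D.nod.V₁.redF ((algebraMap L F a)⁻¹ * h * (D.z c) ^ (-m))) 1

/-- leading coefficient normalisation on the second component: `h / (a z' ^ m)` is a `V₂`-unit whose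
reduction has the value `1` at the node point `x₂ c` -/
def Lead₂ (c : Fin D.nod.s) (h : F) (a : L) (m : ℤ) : Prop :=
  HasValueAt (D.nod.x₂ c) (D.nod.V₂.redF ((algebraMap L F a)⁻¹ * h * (D.z' c) ^ (-m))) 1

/-- **(FACT₁⁺)** the outer Weierstrass factorisation WITH the leading coefficient clause -/
def FactL₁ : Prop :=
  ∀ h : F, h ≠ 0 → ∀ c : Fin D.nod.s, ∃ (a : L) (m : ℤ), a ≠ 0 ∧ D.Lead₁ c h a m ∧
    ∀ Q, D.ann Q = some c → Q.ord h = 0 →
      A.valuation (ev Q h / (a * D.zval c Q ^ m * D.outerProd c h (D.zval c Q)) - 1) < 1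

/-- **(FACT₂⁺)** the inner Weierstrass factorisation WITH the leading coefficient clause -/
def FactL₂ : Prop :=
  ∀ h : F, h ≠ 0 → ∀ c : Fin D.nod.s, ∃ (a : L) (m : ℤ), a ≠ 0 ∧ D.Lead₂ c h a m ∧
    ∀ Q, D.ann Q = some c → Q.ord h = 0 →
      A.valuation (ev Q h / (a * (D.pi c / D.zval c Q) ^ m * D.innerProd c h (D.zval c Q)) - 1) < 1

end AnnDatum

end Fermat.Agent.S44lib.Ann
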