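/-
S44lib / Ann / Slope  (helper9)  — Project LSq, block M1

The first theorems of the abstract annulus calculus, from `Fact₁` + `Fact₂` only:
per-annulus CONSERVATION and the SLOPE FORMULA (`AnnDatum.exists_slopes`).
-/
import Fermat.Agent.S44lib.Ann.Datum

set_option autoImplicit false
set_option linter.unusedSectionVars false

noncomputable section

namespace Fermat.Agent.S44lib.Ann

open AlgebraicCurve Fermat.Agent.LSb Fermat.Agent.S18lib Fermat.Agent.S33lib
open Fermat.Agent.S19lib.C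

/-- `∏ x ^ f i = x ^ Σ f i` in a commutative group with zero -/
theorem prod_zpow_const {Γ ι : Type*} [CommGroupWithZero Γ] (s : Finset ι) (f : ι → ℤ) {x : Γ}
    (hx : x ≠ 0) : ∏ i ∈ s, x ^ f i = x ^ ∑ i ∈ s, f i := by
  classical
  induction s using Finset.induction_on with
  | empty => simp
  | insert a s ha ih => rw [Finset.prod_insert ha, Finset.sum_insert ha, ih, zpow_add₀ hx]

variable {L : Type*} [Field L] {A : ValuationSubring L}
variable {F : Type*} [Field F] [Algebra L F] [HasPrincipalDivisors L F]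
variable {F₁ F₂ : Type*} [Field F₁] [Field F₂]
variable [Algebra (IsLocalRing.ResidueField A) F₁] [Algebra (IsLocalRing.ResidueField A) F₂]

namespace AnnDatum

variable (D : AnnDatum A F F₁ F₂)

theorem val_zval_ne_zero {c : Fin D.nod.s} {P : Place L F} (h : D.ann P = some c) :
    A.valuation (D.zval c P) ≠ 0 :=
  (Valuation.ne_zero_iff _).2 (D.zval_ne_zero h)

/-- on the outer collar the outer Blaschke product is a unit -/
theorem val_outerProd {c : Fin D.nod.s} {h : F} {t : L}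
    (ht : ∀ P ∈ (D.annDiv c h).support, A.valuation (D.zval c P) < A.valuation t) :
    A.valuation (D.outerProd c h t) = 1 := by
  unfold outerProd
  rw [Finsupp.prod, map_prod]
  refine Finset.prod_eq_one fun P hP => ?_
  have h0 : (0 : A.ValueGroup) < A.valuation t := lt_of_le_of_lt zero_le (ht P hP)
  have h1 : A.valuation (D.zval c P / t) < 1 := by
    rw [map_div₀]
    exact (div_lt_one₀ h0).2 (ht P hP)
  rw [map_zpow₀, Valuation.map_one_sub_of_lt _ h1, one_zpow]

/-- on the outer collar the inner Blaschke product has absolute value `|t| ^ deg / ∏ |z(P)| ^ n_P` -/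
theorem val_innerProd {c : Fin D.nod.s} {h : F} {t : L}
    (ht : ∀ P ∈ (D.annDiv c h).support, A.valuation (D.zval c P) < A.valuation t) :
    A.valuation (D.innerProd c h t) * D.radProd c h = A.valuation t ^ D.annDeg c h := by
  by_cases hs : (D.annDiv c h).support = ∅
  · unfold innerProd radProd annDeg
    rw [Finsupp.prod, Finsupp.prod, Finsupp.sum, hs]
    simp
  obtain ⟨P₀, hP₀⟩ := Finset.nonempty_iff_ne_empty.2 hs
  have h0 : (0 : A.ValueGroup) < A.valuation t := lt_of_le_of_lt zero_le (ht P₀ hP₀)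
  unfold innerProd radProd annDeg
  rw [Finsupp.prod, Finsupp.prod, Finsupp.sum, map_prod, ← Finset.prod_mul_distrib,
    ← prod_zpow_const _ _ h0.ne']
  refine Finset.prod_congr rfl fun P hP => ?_
  have hann : D.ann P = some c := (D.mem_support_annDiv.1 hP).2
  have hz : A.valuation (D.zval c P) ≠ 0 := D.val_zval_ne_zero hann
  have h1 : A.valuation (1 : L) < A.valuation (t / D.zval c P) := by
    rw [map_one, map_div₀]
    exact (one_lt_div₀ (lt_of_le_of_ne zero_le hz.symm)).2 (ht P hP)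
  rw [map_zpow₀, Valuation.map_sub_eq_of_lt_right _ h1, map_div₀, div_zpow, div_mul_cancel₀]
  exact zpow_ne_zero _ hz

/-- a point of the annulus whose radius is bigger than all the radii of the zeros and poles of `h`
in the annulus is not a zero or pole of `h` -/
theorem ord_eq_zero_of_collar {c : Fin D.nod.s} {h : F} {Q : Place L F} (hQ : D.ann Q = some c)
    (ht : ∀ P ∈ (D.annDiv c h).support, A.valuation (D.zval c P) < A.valuation (D.zval c Q)) :
    Q.ord h = 0 := by
  by_contra h0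
  exact lt_irrefl _ (ht Q (D.mem_support_annDiv.2 ⟨h0, hQ⟩))

theorem val_eq_of_sub_one_lt {x y : L} (hy : y ≠ 0) (h : A.valuation (x / y - 1) < 1) :
    A.valuation x = A.valuation y := by
  have h1 : A.valuation (x / y) = 1 := by
    have := Valuation.map_one_add_of_lt _ h
    rwa [add_sub_cancel] at this
  rw [map_div₀] at h1
  exact (div_eq_one_iff_eq ((Valuation.ne_zero_iff _).2 hy)).1 h1

/-- the basic identity on the outer collar -/
theorem collar_identity {h : F} {c : Fin D.nod.s} {a₁ a₂ : L} {m₁ m₂ : ℤ} (ha₁ : a₁ ≠ 0)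
    (ha₂ : a₂ ≠ 0)
    (f₁ : ∀ Q, D.ann Q = some c → Q.ord h = 0 →
      A.valuation (ev Q h / (a₁ * D.zval c Q ^ m₁ * D.outerProd c h (D.zval c Q)) - 1) < 1)
    (f₂ : ∀ Q, D.ann Q = some c → Q.ord h = 0 →
      A.valuation (ev Q h / (a₂ * (D.pi c / D.zval c Q) ^ m₂ * D.innerProd c h (D.zval c Q)) - 1)
        < 1)
    {Q : Place L F} (hQ : D.ann Q = some c)
    (ht : ∀ P ∈ (D.annDiv c h).support, A.valuation (D.zval c P) < A.valuation (D.zval c Q)) :
    A.valuation (D.zval c Q) ^ (m₁ + m₂ - D.annDeg c h) * (A.valuation a₁ * D.radProd c h) =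
      A.valuation a₂ * A.valuation (D.pi c) ^ m₂ := by
  have hord := D.ord_eq_zero_of_collar hQ ht
  have ht0 : D.zval c Q ≠ 0 := D.zval_ne_zero hQ
  have hX : A.valuation (D.zval c Q) ≠ 0 := D.val_zval_ne_zero hQ
  have hO := D.val_outerProd ht
  have hI := D.val_innerProd ht
  have hO0 : D.outerProd c h (D.zval c Q) ≠ 0 := by
    intro h0
    rw [h0, map_zero] at hO
    exact zero_ne_one hO
  have hXN : A.valuation (D.zval c Q) ^ D.annDeg c h ≠ 0 := zpow_ne_zero _ hX
  have hI0 : D.innerProd c h (D.zval c Q) ≠ 0 := by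
    intro h0
    rw [h0, map_zero, zero_mul] at hI
    exact hXN hI.symm
  have e₁ := val_eq_of_sub_one_lt (A := A)
    (mul_ne_zero (mul_ne_zero ha₁ (zpow_ne_zero _ ht0)) hO0) (f₁ Q hQ hord)
  have e₂ := val_eq_of_sub_one_lt (A := A)
    (mul_ne_zero (mul_ne_zero ha₂ (zpow_ne_zero _ (div_ne_zero (D.pi_ne_zero c) ht0))) hI0)
    (f₂ Q hQ hord)
  rw [map_mul, map_mul, map_zpow₀, hO, mul_one] at e₁
  rw [map_mul, map_mul, map_zpow₀, map_div₀, div_zpow] at e₂
  -- `e₁ : |h(Q)| = |a₁| X ^ m₁`,  `e₂ : |h(Q)| = |a₂| (|pi| ^ m₂ / X ^ m₂) |IP|`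
  have hXm₂ : A.valuation (D.zval c Q) ^ m₂ ≠ 0 := zpow_ne_zero _ hX
  rw [sub_eq_add_neg, zpow_add₀ hX, zpow_add₀ hX, zpow_neg]
  have key : A.valuation a₁ * A.valuation (D.zval c Q) ^ m₁ =
      A.valuation a₂ * (A.valuation (D.pi c) ^ m₂ / A.valuation (D.zval c Q) ^ m₂) *
        A.valuation (D.innerProd c h (D.zval c Q)) := e₁.symm.trans e₂
  calc A.valuation (D.zval c Q) ^ m₁ * A.valuation (D.zval c Q) ^ m₂ *
        (A.valuation (D.zval c Q) ^ D.annDeg c h)⁻¹ * (A.valuation a₁ * D.radProd c h)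
      = (A.valuation a₁ * A.valuation (D.zval c Q) ^ m₁) * A.valuation (D.zval c Q) ^ m₂ *
          (A.valuation (D.zval c Q) ^ D.annDeg c h)⁻¹ * D.radProd c h := by ac_rfl
    _ = A.valuation a₂ * (A.valuation (D.pi c) ^ m₂ / A.valuation (D.zval c Q) ^ m₂) *
          A.valuation (D.zval c Q) ^ m₂ * (A.valuation (D.zval c Q) ^ D.annDeg c h)⁻¹ *
          (A.valuation (D.innerProd c h (D.zval c Q)) * D.radProd c h) := by rw [key]; ac_rfl
    _ = A.valuation a₂ * A.valuation (D.pi c) ^ m₂ := by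
        rw [hI, mul_assoc (A.valuation a₂), div_mul_cancel₀ _ hXm₂, mul_assoc,
          inv_mul_cancel₀ hXN, mul_one]

/-- an upper bound `< 1` of the radii of finitely many points of the annulus -/
theorem exists_radius_bound (c : Fin D.nod.s) (s : Finset (Place L F))
    (hs : ∀ P ∈ s, D.ann P = some c) :
    ∃ b : L, A.valuation (D.pi c) ≤ A.valuation b ∧ A.valuation b < 1 ∧
      ∀ P ∈ s, A.valuation (D.zval c P) ≤ A.valuation b := by
  classical
  induction s using Finset.induction_on with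
  | empty => exact ⟨D.pi c, le_rfl, D.pi_lt_one c, fun P hP => absurd hP (Finset.notMem_empty P)⟩
  | insert P s hP ih =>
    obtain ⟨b, hb1, hb2, hb3⟩ := ih fun Q hQ => hs Q (Finset.mem_insert_of_mem hQ)
    have hPc : D.ann P = some c := hs P (Finset.mem_insert_self P s)
    by_cases hle : A.valuation (D.zval c P) ≤ A.valuation b
    · refine ⟨b, hb1, hb2, fun Q hQ => ?_⟩
      rcases Finset.mem_insert.1 hQ with rfl | hQ
      · exact hle
      · exact hb3 Q hQ
    · have hlt : A.valuation b < A.valuation (D.zval c P) := not_le.1 hle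
      refine ⟨D.zval c P, hb1.trans hlt.le, D.z_lt_one P c hPc, fun Q hQ => ?_⟩
      rcases Finset.mem_insert.1 hQ with rfl | hQ
      · exact le_rfl
      · exact (hb3 Q hQ).trans hlt.le

/-- two points of different radii on the outer collar of the annulus `c` (outside all zeros and
poles of `h`) -/
theorem exists_collar_points (c : Fin D.nod.s) (h : F) :
    ∃ Q Q' : Place L F, D.ann Q = some c ∧ D.ann Q' = some c ∧
      (∀ P ∈ (D.annDiv c h).support, A.valuation (D.zval c P) < A.valuation (D.zval c Q)) ∧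
      (∀ P ∈ (D.annDiv c h).support, A.valuation (D.zval c P) < A.valuation (D.zval c Q')) ∧
      A.valuation (D.zval c Q) < A.valuation (D.zval c Q') := by
  obtain ⟨b, hb1, hb2, hb3⟩ := D.exists_radius_bound c (D.annDiv c h).support
    fun P hP => (D.mem_support_annDiv.1 hP).2
  have hb2' : A.valuation b < A.valuation (1 : L) := by rwa [map_one]
  obtain ⟨t, ht1, ht2⟩ := D.dense b 1 hb2'
  obtain ⟨t', ht'1, ht'2⟩ := D.dense t 1 ht2
  rw [map_one] at ht2 ht'2
  obtain ⟨Q, hQ, hQt⟩ := D.z_surj c t (lt_of_le_of_lt hb1 ht1) ht2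
  obtain ⟨Q', hQ', hQt'⟩ := D.z_surj c t' (lt_of_le_of_lt hb1 (ht1.trans ht'1)) ht'2
  have e : D.zval c Q = t := hQt
  have e' : D.zval c Q' = t' := hQt'
  refine ⟨Q, Q', hQ, hQ', fun P hP => ?_, fun P hP => ?_, ?_⟩
  · rw [e]; exact lt_of_le_of_lt (hb3 P hP) ht1
  · rw [e']; exact lt_of_le_of_lt (hb3 P hP) (ht1.trans ht'1)
  · rw [e, e']; exact ht'1

/-- **Per-annulus conservation and the slope formula.**  For `h ≠ 0` and a node `c`: the node orders
`m₁`, `m₂` of the normalised reductions of `h` on the two components satisfy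
`m₁ + m₂ = #zeros - #poles of h in the annulus c`, and the normalising constants satisfy
`|a₁| ∏_P |z(P)| ^ {ord_P h} = |a₂| |pi c| ^ m₂`. -/
theorem exists_slopes (h1 : D.Fact₁) (h2 : D.Fact₂) {h : F} (hh : h ≠ 0) (c : Fin D.nod.s) :
    ∃ (a₁ : L) (m₁ : ℤ) (a₂ : L) (m₂ : ℤ), D.Slope₁ c h a₁ m₁ ∧ D.Slope₂ c h a₂ m₂ ∧
      m₁ + m₂ = D.annDeg c h ∧
      A.valuation a₁ * D.radProd c h = A.valuation a₂ * A.valuation (D.pi c) ^ m₂ := by
  obtain ⟨a₁, m₁, hs₁, f₁⟩ := h1 h hh c
  obtain ⟨a₂, m₂, hs₂, f₂⟩ := h2 h hh c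
  obtain ⟨Q, Q', hQ, hQ', hc, hc', hlt⟩ := D.exists_collar_points c h
  have i₁ := D.collar_identity hs₁.1 hs₂.1 f₁ f₂ hQ hc
  have i₂ := D.collar_identity hs₁.1 hs₂.1 f₁ f₂ hQ' hc'
  have hX : A.valuation (D.zval c Q) ≠ 0 := D.val_zval_ne_zero hQ
  have hX' : A.valuation (D.zval c Q') ≠ 0 := D.val_zval_ne_zero hQ'
  have hC : A.valuation a₁ * D.radProd c h ≠ 0 := by
    refine mul_ne_zero ((Valuation.ne_zero_iff _).2 hs₁.1) ?_
    unfold radProd
    rw [Finsupp.prod]
    exact Finset.prod_ne_zero_iff.2 fun P hP =>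
      zpow_ne_zero _ (D.val_zval_ne_zero (D.mem_support_annDiv.1 hP).2)
  have hM : m₁ + m₂ - D.annDeg c h = 0 := by
    have e : A.valuation (D.zval c Q) ^ (m₁ + m₂ - D.annDeg c h) =
        A.valuation (D.zval c Q') ^ (m₁ + m₂ - D.annDeg c h) :=
      mul_right_cancel₀ hC (i₁.trans i₂.symm)
    have e2 : (A.valuation (D.zval c Q) / A.valuation (D.zval c Q')) ^
        (m₁ + m₂ - D.annDeg c h) = 1 := by
      rw [div_zpow, e, div_self (zpow_ne_zero _ hX')]
    have hne : A.valuation (D.zval c Q) / A.valuation (D.zval c Q') ≠ 1 := by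
      intro h1
      exact hlt.ne ((div_eq_one_iff_eq hX').1 h1)
    exact (zpow_eq_one_iff_right₀ zero_le hne).1 e2
  refine ⟨a₁, m₁, a₂, m₂, hs₁, hs₂, by linarith, ?_⟩
  rw [hM, zpow_zero, one_mul] at i₁
  exact i₁

/-! ### the normalising constant and the node order do not depend on choices -/

/-- two normalisations of the same function differ by a unit of `A`: same absolute value and same
order of the reduction at any place -/
theorem norm_unique {Fk : Type*} [Field Fk] [Algebra (IsLocalRing.ResidueField A) Fk]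
    (G : GaussDatum A F Fk) (x : Place (IsLocalRing.ResidueField A) Fk) {h : F} {a a' : L}
    (ha : a ≠ 0) (ha' : a' ≠ 0)
    (h1 : G.redF ((algebraMap L F a)⁻¹ * h) ≠ 0) (h2 : G.redF ((algebraMap L F a')⁻¹ * h) ≠ 0) :
    A.valuation a = A.valuation a' ∧
      x.ord (G.redF ((algebraMap L F a)⁻¹ * h)) = x.ord (G.redF ((algebraMap L F a')⁻¹ * h)) := by
  have hh : h ≠ 0 := by
    rintro rfl
    rw [mul_zero] at h1
    refine h1 ?_
    rw [G.redF_of_mem G.O.zero_mem]
    exact map_zero G.red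
  have hA : algebraMap L F a ≠ 0 := (map_ne_zero _).2 ha
  have hA' : algebraMap L F a' ≠ 0 := (map_ne_zero _).2 ha'
  -- `b = a / a'` and its inverse lie in `A`
  have e1 : algebraMap L F (a / a') = ((algebraMap L F a')⁻¹ * h) * ((algebraMap L F a)⁻¹ * h)⁻¹ := by
    rw [map_div₀]; field_simp
  have e2 : algebraMap L F (a' / a) = ((algebraMap L F a)⁻¹ * h) * ((algebraMap L F a')⁻¹ * h)⁻¹ := by
    rw [map_div₀]; field_simp
  have hb : a / a' ∈ A := by
    rw [← G.algebraMap_mem_iff, e1]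
    exact G.O.mul_mem _ _ (G.mem_of_redF_ne_zero h2) (G.inv_mem_of_redF_ne_zero h1)
  have hb' : a' / a ∈ A := by
    rw [← G.algebraMap_mem_iff, e2]
    exact G.O.mul_mem _ _ (G.mem_of_redF_ne_zero h1) (G.inv_mem_of_redF_ne_zero h2)
  have hv : A.valuation (a / a') = 1 := by
    refine le_antisymm ((A.valuation_le_one_iff _).2 hb) ?_
    have := (A.valuation_le_one_iff _).2 hb'
    rw [map_div₀] at this ⊢
    have h0 : A.valuation a ≠ 0 := (Valuation.ne_zero_iff _).2 ha
    have h0' : A.valuation a' ≠ 0 := (Valuation.ne_zero_iff _).2 ha'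
    rw [div_le_one₀ (lt_of_le_of_ne zero_le h0.symm)] at this
    rw [one_le_div₀ (lt_of_le_of_ne zero_le h0'.symm)]
    exact this
  refine ⟨?_, ?_⟩
  · rw [map_div₀] at hv
    exact (div_eq_one_iff_eq ((Valuation.ne_zero_iff _).2 ha')).1 hv
  · -- the reductions differ by the nonzero constant `residue (a / a')`
    have e3 : (algebraMap L F a')⁻¹ * h = algebraMap L F ((⟨a / a', hb⟩ : A) : L) *
        ((algebraMap L F a)⁻¹ * h) := by
      show _ = algebraMap L F (a / a') * _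
      rw [map_div₀]; field_simp
    have hres : IsLocalRing.residue A ⟨a / a', hb⟩ ≠ 0 := by
      intro h0
      apply h2
      rw [e3, G.redF_smul _ (G.mem_of_redF_ne_zero h1), h0, zero_smul]
    rw [e3, G.redF_smul _ (G.mem_of_redF_ne_zero h1), Algebra.smul_def,
      x.ord_mul ((map_ne_zero _).2 hres) h1, ord_algebraMap_eq_zero x hres, zero_add]

theorem Slope₁_unique {c : Fin D.nod.s} {h : F} {a a' : L} {m m' : ℤ} (h1 : D.Slope₁ c h a m)
    (h2 : D.Slope₁ c h a' m') : A.valuation a = A.valuation a' ∧ m = m' := by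
  obtain ⟨e1, e2⟩ := norm_unique D.nod.V₁ (D.nod.x₁ c) h1.1 h2.1 h1.2.2.1 h2.2.2.1
  exact ⟨e1, by rw [← h1.2.2.2, ← h2.2.2.2, e2]⟩

theorem Slope₂_unique {c : Fin D.nod.s} {h : F} {a a' : L} {m m' : ℤ} (h1 : D.Slope₂ c h a m)
    (h2 : D.Slope₂ c h a' m') : A.valuation a = A.valuation a' ∧ m = m' := by
  obtain ⟨e1, e2⟩ := norm_unique D.nod.V₂ (D.nod.x₂ c) h1.1 h2.1 h1.2.2.1 h2.2.2.1
  exact ⟨e1, by rw [← h1.2.2.2, ← h2.2.2.2, e2]⟩

/-- **conservation and slope formula** for ARBITRARY normalisations -/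
theorem slope_formula (h1 : D.Fact₁) (h2 : D.Fact₂) {h : F} (hh : h ≠ 0) {c : Fin D.nod.s}
    {a₁ a₂ : L} {m₁ m₂ : ℤ} (hs₁ : D.Slope₁ c h a₁ m₁) (hs₂ : D.Slope₂ c h a₂ m₂) :
    m₁ + m₂ = D.annDeg c h ∧
      A.valuation a₁ * D.radProd c h = A.valuation a₂ * A.valuation (D.pi c) ^ m₂ := by
  obtain ⟨b₁, n₁, b₂, n₂, t₁, t₂, e, f⟩ := D.exists_slopes h1 h2 hh c
  obtain ⟨u1, u2⟩ := D.Slope₁_unique hs₁ t₁
  obtain ⟨v1, v2⟩ := D.Slope₂_unique hs₂ t₂
  rw [u1, u2, v1, v2]
  exact ⟨e, f⟩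

/-- every nonzero function has slopes on both sides of every annulus -/
theorem exists_Slope₁ {h : F} (hh : h ≠ 0) (c : Fin D.nod.s) : ∃ a m, D.Slope₁ c h a m := by
  obtain ⟨b, hb, hr⟩ := D.nod.V₁.exists_const_mul_redF_ne_zero hh
  refine ⟨b⁻¹, _, inv_ne_zero hb, ?_, ?_, rfl⟩ <;> rw [map_inv₀, inv_inv]
  · exact D.nod.V₁.mem_of_redF_ne_zero hr
  · exact hr

theorem exists_Slope₂ {h : F} (hh : h ≠ 0) (c : Fin D.nod.s) : ∃ a m, D.Slope₂ c h a m := by
  obtain ⟨b, hb, hr⟩ := D.nod.V₂.exists_const_mul_redF_ne_zero hh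
  refine ⟨b⁻¹, _, inv_ne_zero hb, ?_, ?_, rfl⟩ <;> rw [map_inv₀, inv_inv]
  · exact D.nod.V₂.mem_of_redF_ne_zero hr
  · exact hr

end AnnDatum

end Fermat.Agent.S44lib.Ann
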