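/-
S44lib / Ann / Glue  (helper9)  — Project LSq, block M1

* `ord_z_sub_of_ne`, `annDiv_z_sub`, `annDiv_cut` : the function `z c - a` has a simple zero at the point of
  the annulus `c` with coordinate `a` and no other zero or pole in that annulus; the CUT function
  `cut c Δ = ∏_P (z c - z(P)) ^ {Δ P}` has divisor `Δ` on the annulus `c`;
* `Lead₁.slope`, `Lead₂.slope`, `FactL₁.fact`, `FactL₂.fact` : the leading coefficient clause implies
  the node order clause;
* `glueAnn_of_factL` : `FactL₁ + FactL₂ ⟹ GlueAnn`.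
-/
import Fermat.Agent.S44lib.Ann.Slope

set_option autoImplicit false
set_option linter.unusedSectionVars false

noncomputable section

namespace Fermat.Agent.S44lib.Ann

open AlgebraicCurve Fermat.Agent.LSb Fermat.Agent.S18lib Fermat.Agent.S33lib
open Fermat.Agent.S19lib.C

/-- bounds for a product of radii `w < x i < 1` with positive exponents -/
theorem prod_zpow_bounds {Γ ι : Type*} [LinearOrderedCommGroupWithZero Γ] {w : Γ} (hw0 : w ≠ 0)
    (s : Finset ι) (x : ι → Γ) (e : ι → ℤ) (hx : ∀ i ∈ s, w < x i ∧ x i < 1)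
    (he : ∀ i ∈ s, 0 < e i) :
    s = ∅ ∨ (w ^ (∑ i ∈ s, e i) < ∏ i ∈ s, x i ^ e i ∧ ∏ i ∈ s, x i ^ e i < 1 ∧
      0 < ∑ i ∈ s, e i) := by
  classical
  induction s using Finset.induction_on with
  | empty => exact Or.inl rfl
  | insert a s ha ih =>
    right
    obtain ⟨hxa1, hxa2⟩ := hx a (Finset.mem_insert_self a s)
    have hea := he a (Finset.mem_insert_self a s)
    obtain ⟨k, hk⟩ := Int.eq_ofNat_of_zero_le hea.le
    have hk0 : k ≠ 0 := by
      rintro rfl
      rw [hk] at hea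
      exact lt_irrefl _ hea
    have f1 : w ^ e a < x a ^ e a := by
      rw [hk, zpow_natCast, zpow_natCast]
      exact pow_lt_pow_left₀ hxa1 zero_le hk0
    have f2 : x a ^ e a < 1 := by
      rw [hk, zpow_natCast]
      exact (pow_lt_one_iff hk0).mpr hxa2
    rw [Finset.prod_insert ha, Finset.sum_insert ha]
    rcases ih (fun i hi => hx i (Finset.mem_insert_of_mem hi))
      (fun i hi => he i (Finset.mem_insert_of_mem hi)) with rfl | ⟨g1, g2, g3⟩
    · simp only [Finset.prod_empty, Finset.sum_empty, mul_one, add_zero]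
      exact ⟨f1, f2, hea⟩
    · refine ⟨?_, mul_lt_one_of_lt_of_le f2 g2.le, by omega⟩
      rw [zpow_add₀ hw0]
      exact mul_lt_mul'' f1 g1 zero_le zero_le

theorem eq_one_of_mul_eq_one_of_le {Γ : Type*} [LinearOrderedCommGroupWithZero Γ] {a b : Γ}
    (h1 : a ≤ 1) (h2 : b ≤ 1) (h : a * b = 1) : a = 1 := by
  refine le_antisymm h1 (le_of_not_gt fun hlt => ?_)
  exact (mul_lt_one_of_lt_of_le hlt h2).ne h

variable {L : Type*} [Field L] {A : ValuationSubring L}
variable {F : Type*} [Field F] [Algebra L F] [HasPrincipalDivisors L F]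
variable {F₁ F₂ : Type*} [Field F₁] [Field F₂]
variable [Algebra (IsLocalRing.ResidueField A) F₁] [Algebra (IsLocalRing.ResidueField A) F₂]

namespace AnnDatum

variable (D : AnnDatum A F F₁ F₂)

/-! ### the divisor of `z - a` on the annulus -/

theorem z_sub_ne_zero {c : Fin D.nod.s} {Q : Place L F} (hQ : D.ann Q = some c) (a : L) :
    D.z c - algebraMap L F a ≠ 0 := by
  intro h0
  have h1 := D.z_ord Q c hQ
  have e : D.z c = algebraMap L F a := sub_eq_zero.1 h0
  have e2 : ev Q (D.z c) = a := by rw [e, ev_const]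
  rw [e2, h0, Q.ord_zero] at h1
  exact zero_ne_one h1

/-- `z c - a` has neither zero nor pole at the points of the annulus `c` with coordinate `≠ a`
(at the point with coordinate `a` it has a simple zero: `z_ord`) -/
theorem ord_z_sub_of_ne {c : Fin D.nod.s} {Q : Place L F} (hQ : D.ann Q = some c) {a : L}
    (h : D.zval c Q ≠ a) : Q.ord (D.z c - algebraMap L F a) = 0 := by
  have hd := D.deg_ann Q c hQ
  have hreg : RegAt Q (D.z c - algebraMap L F a) := (D.z_regAt Q c hQ).sub (regAt_const a)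
  refine (ev_ne_zero_iff_ord hd hreg (D.z_sub_ne_zero hQ a)).1 ?_
  rw [ev_sub hd (D.z_regAt Q c hQ) (regAt_const a), ev_const]
  exact sub_ne_zero.2 h

theorem annDiv_z_sub {c : Fin D.nod.s} {P : Place L F} (hP : D.ann P = some c) :
    D.annDiv c (D.z c - algebraMap L F (D.zval c P)) = Finsupp.single P 1 := by
  classical
  ext Q
  by_cases hQ : D.ann Q = some c
  · rw [D.annDiv_apply_of_mem hQ, Finsupp.single_apply]
    by_cases hQP : P = Q
    · subst hQP
      rw [if_pos rfl]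
      exact D.z_ord P c hP
    · rw [if_neg hQP]
      exact D.ord_z_sub_of_ne hQ fun h => hQP (D.z_inj P Q c hP hQ h.symm)
  · have h1 : D.annDiv c (D.z c - algebraMap L F (D.zval c P)) Q = 0 := by
      unfold annDiv
      exact Finsupp.filter_apply_neg (fun P => D.ann P = some c) _ hQ
    rw [h1, Finsupp.single_apply, if_neg]
    rintro rfl
    exact hQ hP

theorem annDiv_mul {c : Fin D.nod.s} {f g : F} (hf : f ≠ 0) (hg : g ≠ 0) :
    D.annDiv c (f * g) = D.annDiv c f + D.annDiv c g := by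
  unfold annDiv
  rw [divOf_mul hf hg, Finsupp.filter_add]

theorem annDiv_one (c : Fin D.nod.s) : D.annDiv c (1 : F) = 0 := by
  unfold annDiv
  rw [divOf_one, Finsupp.filter_zero]

theorem annDiv_inv (c : Fin D.nod.s) (f : F) : D.annDiv c f⁻¹ = -D.annDiv c f := by
  unfold annDiv
  rw [divOf_inv, Finsupp.filter_neg]

theorem annDiv_zpow (c : Fin D.nod.s) (f : F) (n : ℤ) : D.annDiv c (f ^ n) = n • D.annDiv c f := by
  have hpow : ∀ k : ℕ, D.annDiv c (f ^ k) = (k : ℤ) • D.annDiv c f := by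
    intro k
    unfold annDiv
    rw [divOf_pow, natCast_zsmul]
    ext P
    simp only [Finsupp.filter_apply, Finsupp.smul_apply]
    split_ifs <;> simp
  obtain ⟨k, rfl | rfl⟩ := n.eq_nat_or_neg
  · rw [zpow_natCast, hpow]
  · rw [zpow_neg, zpow_natCast, annDiv_inv, hpow, neg_smul]

/-- the cut function of a divisor supported on the annulus `c` -/
def cut (c : Fin D.nod.s) (Δ : Divisor L F) : F :=
  Δ.prod fun P n => (D.z c - algebraMap L F (D.zval c P)) ^ n

theorem cut_ne_zero {c : Fin D.nod.s} {Δ : Divisor L F} (hΔ : ∀ P ∈ Δ.support, D.ann P = some c) :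
    D.cut c Δ ≠ 0 := by
  unfold cut
  rw [Finsupp.prod]
  exact Finset.prod_ne_zero_iff.2 fun P hP => zpow_ne_zero _ (D.z_sub_ne_zero (hΔ P hP) _)

/-- **the cut function has divisor `Δ` on the annulus `c`** -/
theorem annDiv_cut {c : Fin D.nod.s} {Δ : Divisor L F} (hΔ : ∀ P ∈ Δ.support, D.ann P = some c) :
    D.annDiv c (D.cut c Δ) = Δ := by
  classical
  have key : ∀ s : Finset (Place L F), (∀ P ∈ s, D.ann P = some c) →
      D.annDiv c (∏ P ∈ s, (D.z c - algebraMap L F (D.zval c P)) ^ Δ P) =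
        ∑ P ∈ s, Finsupp.single P (Δ P) := by
    intro s
    induction s using Finset.induction_on with
    | empty => intro _; simp [annDiv_one]
    | insert P s hP ih =>
      intro hs
      have hPc : D.ann P = some c := hs P (Finset.mem_insert_self P s)
      have hs' : ∀ Q ∈ s, D.ann Q = some c := fun Q hQ => hs Q (Finset.mem_insert_of_mem hQ)
      rw [Finset.prod_insert hP, Finset.sum_insert hP, D.annDiv_mul
        (zpow_ne_zero _ (D.z_sub_ne_zero hPc _))
        (Finset.prod_ne_zero_iff.2 fun Q hQ => zpow_ne_zero _ (D.z_sub_ne_zero (hs' Q hQ) _)),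
        ih hs', D.annDiv_zpow, D.annDiv_z_sub hPc, Finsupp.smul_single, smul_eq_mul, mul_one]
  unfold cut
  rw [Finsupp.prod, key Δ.support hΔ]
  exact Finsupp.sum_single Δ

/-! ### normalisations in a Gauss datum -/

section Gauss

variable {Fk : Type*} [Field Fk] [Algebra (IsLocalRing.ResidueField A) Fk]
variable (G : GaussDatum A F Fk) (x : Place (IsLocalRing.ResidueField A) Fk)

theorem redF_zpow_of_unit {u : F} (hu : G.redF u ≠ 0) (m : ℤ) :
    G.redF (u ^ m) = G.redF u ^ m := by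
  obtain ⟨k, rfl | rfl⟩ := m.eq_nat_or_neg
  · rw [zpow_natCast, zpow_natCast, G.redF_pow (G.mem_of_redF_ne_zero hu)]
  · have h1 : G.redF (u ^ k) ≠ 0 := by
      rw [G.redF_pow (G.mem_of_redF_ne_zero hu)]
      exact pow_ne_zero _ hu
    rw [zpow_neg, zpow_neg, zpow_natCast, zpow_natCast, G.redF_inv h1,
      G.redF_pow (G.mem_of_redF_ne_zero hu)]

theorem redF_zpow_ne_zero {u : F} (hu : G.redF u ≠ 0) (m : ℤ) : G.redF (u ^ m) ≠ 0 := by
  rw [redF_zpow_of_unit G hu]
  exact zpow_ne_zero _ hu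

/-- the normalising constant of an integral function is integral -/
theorem const_mem_of_norm {f : F} {a : L} (ha : a ≠ 0) (hf : f ∈ G.O)
    (hr : G.redF ((algebraMap L F a)⁻¹ * f) ≠ 0) : a ∈ A := by
  have hA : algebraMap L F a ≠ 0 := (map_ne_zero _).2 ha
  have hf0 : f ≠ 0 := by
    rintro rfl
    rw [mul_zero] at hr
    exact hr G.redF_zero
  have e : algebraMap L F a = f * ((algebraMap L F a)⁻¹ * f)⁻¹ := by
    field_simp
  rw [← G.algebraMap_mem_iff, e]
  exact G.O.mul_mem _ _ hf (G.inv_mem_of_redF_ne_zero hr)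

theorem redF_eq_smul_of_norm {f : F} {a : L} (ha : a ≠ 0) (hA : a ∈ A)
    (hr : G.redF ((algebraMap L F a)⁻¹ * f) ≠ 0) :
    G.redF f = IsLocalRing.residue A ⟨a, hA⟩ • G.redF ((algebraMap L F a)⁻¹ * f) := by
  have hA0 : algebraMap L F a ≠ 0 := (map_ne_zero _).2 ha
  have e : f = algebraMap L F ((⟨a, hA⟩ : A) : L) * ((algebraMap L F a)⁻¹ * f) := by
    show f = algebraMap L F a * _
    field_simp
  conv_lhs => rw [e]
  exact G.redF_smul _ (G.mem_of_redF_ne_zero hr)

/-- small normalising constant: the reduction vanishes -/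
theorem hasValueAt_zero_of_norm_lt {f : F} {a : L} (ha : a ≠ 0) (hA : a ∈ A)
    (hlt : A.valuation a < 1) (hr : G.redF ((algebraMap L F a)⁻¹ * f) ≠ 0) :
    HasValueAt x (G.redF f) 0 := by
  have h0 : IsLocalRing.residue A ⟨a, hA⟩ = 0 := by
    rw [IsLocalRing.residue_eq_zero_iff, A.valuation_lt_one_iff]
    exact hlt
  rw [redF_eq_smul_of_norm G ha hA hr, h0, zero_smul]
  exact hasValueAt_zero

theorem residue_ne_zero_of_val_eq_one {a : L} (hA : a ∈ A) (h1 : A.valuation a = 1) :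
    IsLocalRing.residue A ⟨a, hA⟩ ≠ 0 := by
  rw [Ne, IsLocalRing.residue_eq_zero_iff, A.valuation_lt_one_iff]
  show ¬ A.valuation a < 1
  rw [h1]
  exact lt_irrefl _

/-- unit normalising constant, positive order: the reduction vanishes at the point -/
theorem hasValueAt_zero_of_ord_pos {f : F} {a : L} (ha : a ≠ 0) (hA : a ∈ A)
    (hr : G.redF ((algebraMap L F a)⁻¹ * f) ≠ 0)
    (hm : 0 < x.ord (G.redF ((algebraMap L F a)⁻¹ * f))) : HasValueAt x (G.redF f) 0 := by
  rw [redF_eq_smul_of_norm G ha hA hr]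
  have := (hasValueAt_zero_iff (Q := x)).2 (Or.inr hm)
  simpa using this.smul (IsLocalRing.residue A ⟨a, hA⟩)

/-- unit normalising constant, leading coefficient `1`: the value is the residue of the constant -/
theorem hasValueAt_of_lead {f : F} {a : L} (ha : a ≠ 0) (hA : a ∈ A)
    (hr : G.redF ((algebraMap L F a)⁻¹ * f) ≠ 0)
    (h1 : HasValueAt x (G.redF ((algebraMap L F a)⁻¹ * f)) 1) :
    HasValueAt x (G.redF f) (IsLocalRing.residue A ⟨a, hA⟩) := by
  rw [redF_eq_smul_of_norm G ha hA hr]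
  simpa using h1.smul (IsLocalRing.residue A ⟨a, hA⟩)

end Gauss

/-! ### the leading coefficient clause implies the node order clause -/

theorem z_ne_zero (c : Fin D.nod.s) : D.z c ≠ 0 := by
  intro h
  apply D.z_red₁ c
  rw [h]
  exact D.nod.V₁.redF_zero

theorem z'_ne_zero (c : Fin D.nod.s) : D.z' c ≠ 0 :=
  mul_ne_zero ((map_ne_zero _).2 (D.pi_ne_zero c)) (inv_ne_zero (D.z_ne_zero c))

/-- abstract form: `w = a⁻¹ h u ^ (-m)` has a reduction with value `1` at `x`, `u` a unit whose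
reduction has order `1` at `x` ⟹ `a⁻¹ h` is a unit whose reduction has order `m` at `x` -/
theorem slope_of_lead {Fk : Type*} [Field Fk] [Algebra (IsLocalRing.ResidueField A) Fk]
    (G : GaussDatum A F Fk) (x : Place (IsLocalRing.ResidueField A) Fk) {u h : F} {a : L} {m : ℤ}
    (hu : G.redF u ≠ 0) (hu1 : x.ord (G.redF u) = 1)
    (hL : HasValueAt x (G.redF ((algebraMap L F a)⁻¹ * h * u ^ (-m))) 1) :
    (algebraMap L F a)⁻¹ * h ∈ G.O ∧ G.redF ((algebraMap L F a)⁻¹ * h) ≠ 0 ∧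
      x.ord (G.redF ((algebraMap L F a)⁻¹ * h)) = m := by
  have hw : G.redF ((algebraMap L F a)⁻¹ * h * u ^ (-m)) ≠ 0 := hL.ne_zero one_ne_zero
  have hu0 : u ≠ 0 := by
    rintro rfl
    exact hu G.redF_zero
  have e : (algebraMap L F a)⁻¹ * h = ((algebraMap L F a)⁻¹ * h * u ^ (-m)) * u ^ m := by
    rw [mul_assoc, ← zpow_add₀ hu0, neg_add_cancel, zpow_zero, mul_one]
  have hum := redF_zpow_ne_zero G hu m
  have hred : G.redF ((algebraMap L F a)⁻¹ * h) =
      G.redF ((algebraMap L F a)⁻¹ * h * u ^ (-m)) * G.redF u ^ m := by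
    conv_lhs => rw [e]
    rw [G.redF_mul (G.mem_of_redF_ne_zero hw) (G.mem_of_redF_ne_zero hum),
      redF_zpow_of_unit G hu]
  refine ⟨?_, ?_, ?_⟩
  · rw [e]
    exact G.O.mul_mem _ _ (G.mem_of_redF_ne_zero hw) (G.mem_of_redF_ne_zero hum)
  · rw [hred]
    exact mul_ne_zero hw (zpow_ne_zero _ hu)
  · rw [hred, x.ord_mul hw (zpow_ne_zero _ hu), hL.ord_eq_zero one_ne_zero, x.ord_zpow, hu1]
    ring

theorem Lead₁.slope {c : Fin D.nod.s} {h : F} {a : L} {m : ℤ} (ha : a ≠ 0)
    (hL : D.Lead₁ c h a m) : D.Slope₁ c h a m := by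
  obtain ⟨h1, h2, h3⟩ := slope_of_lead D.nod.V₁ (D.nod.x₁ c) (D.z_red₁ c) (D.z_ord₁ c) hL
  exact ⟨ha, h1, h2, h3⟩

theorem Lead₂.slope {c : Fin D.nod.s} {h : F} {a : L} {m : ℤ} (ha : a ≠ 0)
    (hL : D.Lead₂ c h a m) : D.Slope₂ c h a m := by
  obtain ⟨h1, h2, h3⟩ := slope_of_lead D.nod.V₂ (D.nod.x₂ c) (D.z'_red₂ c) (D.z'_ord₂ c) hL
  exact ⟨ha, h1, h2, h3⟩

theorem FactL₁.fact (h1 : D.FactL₁) : D.Fact₁ := by
  intro h hh c
  obtain ⟨a, m, ha, hL, hf⟩ := h1 h hh c
  exact ⟨a, m, hL.slope D ha, hf⟩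

theorem FactL₂.fact (h2 : D.FactL₂) : D.Fact₂ := by
  intro h hh c
  obtain ⟨a, m, ha, hL, hf⟩ := h2 h hh c
  exact ⟨a, m, hL.slope D ha, hf⟩

/-! ### `FactL₁ + FactL₂ ⟹ GlueAnn` -/

/-- **(GLUE-ann) from the two Weierstrass factorisations with leading coefficients.** -/
theorem glueAnn_of_factL (h1 : D.FactL₁) (h2 : D.FactL₂) : D.GlueAnn := by
  intro f c hf₁ hf₂ hpole
  by_cases hf0 : f = 0
  · subst hf0
    refine ⟨0, ?_, ?_⟩
    · rw [D.nod.V₁.redF_zero]; exact hasValueAt_zero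
    · rw [D.nod.V₂.redF_zero]; exact hasValueAt_zero
  obtain ⟨a₁, m₁, ha₁, hL₁, hp₁⟩ := h1 f hf0 c
  obtain ⟨a₂, m₂, ha₂, hL₂, hp₂⟩ := h2 f hf0 c
  have hs₁ := hL₁.slope D ha₁
  have hs₂ := hL₂.slope D ha₂
  obtain ⟨hn, hR⟩ := D.slope_formula h1.fact h2.fact hf0 hs₁ hs₂
  have hA₁ : a₁ ∈ A := const_mem_of_norm D.nod.V₁ ha₁ hf₁ hs₁.2.2.1
  have hA₂ : a₂ ∈ A := const_mem_of_norm D.nod.V₂ ha₂ hf₂ hs₂.2.2.1
  have hX : A.valuation a₁ ≤ 1 := (A.valuation_le_one_iff _).2 hA₁
  have hY : A.valuation a₂ ≤ 1 := (A.valuation_le_one_iff _).2 hA₂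
  have hw0 : A.valuation (D.pi c) ≠ 0 := (Valuation.ne_zero_iff _).2 (D.pi_ne_zero c)
  have hw0' : (0 : A.ValueGroup) < A.valuation (D.pi c) := lt_of_le_of_ne zero_le hw0.symm
  have hw1 : A.valuation (D.pi c) < 1 := D.pi_lt_one c
  -- the bounds on the radius product
  have hB := prod_zpow_bounds hw0 (D.annDiv c f).support (fun P => A.valuation (D.zval c P))
    (fun P => D.annDiv c f P)
    (fun P hP => ⟨D.pi_lt_z P c (D.mem_support_annDiv.1 hP).2,
      D.z_lt_one P c (D.mem_support_annDiv.1 hP).2⟩)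
    (fun P hP => by
      have h3 := D.mem_support_annDiv.1 hP
      have h4 := hpole P h3.2
      rw [D.annDiv_apply_of_mem h3.2]
      omega)
  have eR : D.radProd c f = ∏ P ∈ (D.annDiv c f).support,
      A.valuation (D.zval c P) ^ (D.annDiv c f P) := rfl
  have eN : D.annDeg c f = ∑ P ∈ (D.annDiv c f).support, D.annDiv c f P := rfl
  have hn0 : 0 ≤ D.annDeg c f := by
    rcases hB with h | ⟨-, -, h⟩
    · rw [eN, h, Finset.sum_empty]
    · rw [eN]; exact h.le
  have hR1 : D.radProd c f ≤ 1 := by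
    rcases hB with h | ⟨-, h, -⟩
    · rw [eR, h, Finset.prod_empty]
    · rw [eR]; exact h.le
  have hwR : A.valuation (D.pi c) ^ D.annDeg c f ≤ D.radProd c f := by
    rcases hB with h | ⟨h, -, -⟩
    · rw [eR, eN, h, Finset.prod_empty, Finset.sum_empty, zpow_zero]
    · rw [eR, eN]; exact h.le
  have hpos : 0 < D.annDeg c f → A.valuation (D.pi c) ^ D.annDeg c f < D.radProd c f ∧
      D.radProd c f < 1 := by
    intro h0
    rcases hB with h | ⟨g1, g2, -⟩
    · rw [eN, h, Finset.sum_empty] at h0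
      exact absurd h0 (lt_irrefl _)
    · rw [eR, eN]; exact ⟨g1, g2⟩
  have hzero : D.annDeg c f = 0 → D.radProd c f = 1 ∧ (D.annDiv c f).support = ∅ := by
    intro h0
    rcases hB with h | ⟨-, -, g3⟩
    · exact ⟨by rw [eR, h, Finset.prod_empty], h⟩
    · rw [← eN, h0] at g3
      exact absurd g3 (lt_irrefl _)
  -- the four claims
  have claimA : A.valuation a₁ = 1 → 0 ≤ m₁ := by
    intro hX1
    by_contra hneg
    have hlt : D.annDeg c f < m₂ := by omega
    have h3 : D.radProd c f < D.radProd c f := by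
      calc D.radProd c f = A.valuation a₂ * A.valuation (D.pi c) ^ m₂ := by
            rw [← hR, hX1, one_mul]
        _ ≤ A.valuation (D.pi c) ^ m₂ := mul_le_of_le_one_left' hY
        _ < A.valuation (D.pi c) ^ D.annDeg c f := zpow_lt_zpow_right_of_lt_one₀ hw0' hw1 hlt
        _ ≤ D.radProd c f := hwR
    exact lt_irrefl _ h3
  have claimA' : A.valuation a₂ = 1 → 0 ≤ m₂ := by
    intro hY1
    by_contra hneg
    have hlt : m₂ < 0 := by omega
    have h3 : (1 : A.ValueGroup) < A.valuation (D.pi c) ^ m₂ := by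
      have := zpow_lt_zpow_right_of_lt_one₀ hw0' hw1 hlt
      rwa [zpow_zero] at this
    have h4 : A.valuation a₁ * D.radProd c f ≤ 1 := Left.mul_le_one hX hR1
    rw [hR, hY1, one_mul] at h4
    exact lt_irrefl _ (lt_of_lt_of_le h3 h4)
  have claimB : A.valuation a₁ = 1 → m₁ = 0 →
      D.annDeg c f = 0 ∧ m₂ = 0 ∧ A.valuation a₂ = 1 := by
    intro hX1 hm₁
    have hm₂ : m₂ = D.annDeg c f := by omega
    have hle : D.radProd c f ≤ A.valuation (D.pi c) ^ D.annDeg c f := by
      calc D.radProd c f = A.valuation a₂ * A.valuation (D.pi c) ^ m₂ := by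
            rw [← hR, hX1, one_mul]
        _ ≤ A.valuation (D.pi c) ^ m₂ := mul_le_of_le_one_left' hY
        _ = A.valuation (D.pi c) ^ D.annDeg c f := by rw [hm₂]
    have hn' : D.annDeg c f = 0 := by
      by_contra hne
      have h0 : 0 < D.annDeg c f := lt_of_le_of_ne hn0 (Ne.symm hne)
      exact lt_irrefl _ (lt_of_lt_of_le (hpos h0).1 hle)
    refine ⟨hn', by omega, ?_⟩
    have h5 := hR
    rw [hX1, one_mul, (hzero hn').1, hm₂, hn', zpow_zero, mul_one] at h5
    exact h5.symm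
  have claimB' : A.valuation a₂ = 1 → m₂ = 0 → A.valuation a₁ = 1 ∧ m₁ = 0 := by
    intro hY1 hm₂
    have h5 := hR
    rw [hY1, hm₂, zpow_zero, mul_one] at h5
    have hX1 := eq_one_of_mul_eq_one_of_le hX hR1 h5
    rw [hX1, one_mul] at h5
    refine ⟨hX1, ?_⟩
    have hn' : D.annDeg c f = 0 := by
      by_contra hne
      have h0 : 0 < D.annDeg c f := lt_of_le_of_ne hn0 (Ne.symm hne)
      exact (hpos h0).2.ne h5
    omega
  -- the values
  by_cases hcase : A.valuation a₁ = 1 ∧ m₁ = 0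
  · obtain ⟨hX1, hm₁⟩ := hcase
    obtain ⟨hn', hm₂, hY1⟩ := claimB hX1 hm₁
    have hsupp := (hzero hn').2
    have hdiv0 : D.annDiv c f = 0 := Finsupp.support_eq_empty.1 hsupp
    refine ⟨IsLocalRing.residue A ⟨a₁, hA₁⟩, ?_, ?_⟩
    · refine hasValueAt_of_lead D.nod.V₁ (D.nod.x₁ c) ha₁ hA₁ hs₁.2.2.1 ?_
      have := hL₁
      unfold Lead₁ at this
      rwa [hm₁, neg_zero, zpow_zero, mul_one] at this
    · -- the two residues agree: evaluate at one point of the annulus
      have hres : IsLocalRing.residue A ⟨a₂, hA₂⟩ = IsLocalRing.residue A ⟨a₁, hA₁⟩ := by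
        obtain ⟨Q, -, hQ, -, -, -, -⟩ := D.exists_collar_points c f
        have hordQ : Q.ord f = 0 := by
          by_contra hne
          have : Q ∈ (D.annDiv c f).support := D.mem_support_annDiv.2 ⟨hne, hQ⟩
          rw [hsupp] at this
          exact absurd this (Finset.notMem_empty Q)
        have e₁ := hp₁ Q hQ hordQ
        have e₂ := hp₂ Q hQ hordQ
        have hO : D.outerProd c f (D.zval c Q) = 1 := by
          unfold outerProd; rw [hdiv0, Finsupp.prod_zero_index]
        have hI : D.innerProd c f (D.zval c Q) = 1 := by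
          unfold innerProd; rw [hdiv0, Finsupp.prod_zero_index]
        rw [hm₁, zpow_zero, mul_one, hO, mul_one] at e₁
        rw [hm₂, zpow_zero, mul_one, hI, mul_one] at e₂
        -- `e₁ : |f(Q)/a₁ - 1| < 1`, `e₂ : |f(Q)/a₂ - 1| < 1`
        have hdiff : a₂ - a₁ = a₁ * (ev Q f / a₁ - 1) - a₂ * (ev Q f / a₂ - 1) := by
          field_simp
          ring
        have hv : A.valuation (a₂ - a₁) < 1 := by
          rw [hdiff]
          refine Valuation.map_sub_lt _ ?_ ?_
          · rw [map_mul, hX1, one_mul]; exact e₁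
          · rw [map_mul, hY1, one_mul]; exact e₂
        have h0 : IsLocalRing.residue A ⟨a₂, hA₂⟩ - IsLocalRing.residue A ⟨a₁, hA₁⟩ = 0 := by
          rw [← map_sub, IsLocalRing.residue_eq_zero_iff, A.valuation_lt_one_iff]
          exact hv
        exact sub_eq_zero.1 h0
      rw [← hres]
      refine hasValueAt_of_lead D.nod.V₂ (D.nod.x₂ c) ha₂ hA₂ hs₂.2.2.1 ?_
      have := hL₂
      unfold Lead₂ at this
      rwa [hm₂, neg_zero, zpow_zero, mul_one] at this
  · refine ⟨0, ?_, ?_⟩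
    · -- first component
      by_cases hX1 : A.valuation a₁ = 1
      · have hm₁ : m₁ ≠ 0 := fun h => hcase ⟨hX1, h⟩
        have hm₁' : 0 < m₁ := lt_of_le_of_ne (claimA hX1) (Ne.symm hm₁)
        refine hasValueAt_zero_of_ord_pos D.nod.V₁ (D.nod.x₁ c) ha₁ hA₁ hs₁.2.2.1 ?_
        rw [hs₁.2.2.2]; exact hm₁'
      · exact hasValueAt_zero_of_norm_lt D.nod.V₁ (D.nod.x₁ c) ha₁ hA₁
          (lt_of_le_of_ne hX hX1) hs₁.2.2.1
    · -- second component
      by_cases hY1 : A.valuation a₂ = 1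
      · have hm₂ : m₂ ≠ 0 := fun h => hcase (claimB' hY1 h)
        have hm₂' : 0 < m₂ := lt_of_le_of_ne (claimA' hY1) (Ne.symm hm₂)
        refine hasValueAt_zero_of_ord_pos D.nod.V₂ (D.nod.x₂ c) ha₂ hA₂ hs₂.2.2.1 ?_
        rw [hs₂.2.2.2]; exact hm₂'
      · exact hasValueAt_zero_of_norm_lt D.nod.V₂ (D.nod.x₂ c) ha₂ hA₂
          (lt_of_le_of_ne hY hY1) hs₂.2.2.1

end AnnDatum

end Fermat.Agent.S44lib.Ann
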