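/-
S44lib / Ann / Law  (helper9)  — Project LSq, block M1

**The slope formula and the per-annulus conservation law follow from `GlueAnn` ALONE.**

* `GSlope G x h a m` : the generic normalisation predicate (`Slope₁ = GSlope V₁ (x₁ c)`,
  `Slope₂ = GSlope V₂ (x₂ c)`), with its algebra `GSlope.mul/inv/zpow/const/prod`;
* explicit slopes: `slope₁_z`, `slope₂_z`, `slope₁_z_sub`, `slope₂_z_sub`, `slope₁_cut`, `slope₂_cut`;
* `slope₂_of_unit₁` : (unit propagation) a function without zero or pole in the annulus `c` which is a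
  unit at `x₁ c` is a unit at `x₂ c` — from `GlueAnn`;
* `SlopeLaw`, `slopeLaw_of_glueAnn : GlueAnn → SlopeLaw`, `slopeLaw_of_fact`.
-/
import Fermat.Agent.S44lib.Ann.Glue

set_option autoImplicit false
set_option linter.unusedSectionVars false

noncomputable section

namespace Fermat.Agent.S44lib.Ann

open AlgebraicCurve Fermat.Agent.LSb Fermat.Agent.S18lib Fermat.Agent.S33lib
open Fermat.Agent.S19lib.C

variable {L : Type*} [Field L] {A : ValuationSubring L}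
variable {F : Type*} [Field F] [Algebra L F] [HasPrincipalDivisors L F]
variable {F₁ F₂ : Type*} [Field F₁] [Field F₂]
variable [Algebra (IsLocalRing.ResidueField A) F₁] [Algebra (IsLocalRing.ResidueField A) F₂]

/-! ### the generic normalisation predicate and its algebra -/

section GSlope

variable {Fk : Type*} [Field Fk] [Algebra (IsLocalRing.ResidueField A) Fk]

/-- `|h| = |a|` for the Gauss norm of `G` and the normalised reduction of `h` has order `m` at `x` -/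
def GSlope (G : GaussDatum A F Fk) (x : Place (IsLocalRing.ResidueField A) Fk) (h : F) (a : L)
    (m : ℤ) : Prop :=
  a ≠ 0 ∧ (algebraMap L F a)⁻¹ * h ∈ G.O ∧ G.redF ((algebraMap L F a)⁻¹ * h) ≠ 0 ∧
    x.ord (G.redF ((algebraMap L F a)⁻¹ * h)) = m

variable {G : GaussDatum A F Fk} {x : Place (IsLocalRing.ResidueField A) Fk}

theorem GSlope.congr {h : F} {a a' : L} {m m' : ℤ} (hs : GSlope G x h a m) (ha : a = a')
    (hm : m = m') : GSlope G x h a' m' := by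
  subst ha; subst hm; exact hs

theorem GSlope.ne_zero {h : F} {a : L} {m : ℤ} (hs : GSlope G x h a m) : h ≠ 0 := by
  rintro rfl
  apply hs.2.2.1
  rw [mul_zero]
  exact G.redF_zero

theorem GSlope.mul {h h' : F} {a a' : L} {m m' : ℤ} (h1 : GSlope G x h a m)
    (h2 : GSlope G x h' a' m') : GSlope G x (h * h') (a * a') (m + m') := by
  have e : (algebraMap L F (a * a'))⁻¹ * (h * h') =
      ((algebraMap L F a)⁻¹ * h) * ((algebraMap L F a')⁻¹ * h') := by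
    rw [map_mul, mul_inv, mul_mul_mul_comm]
  refine ⟨mul_ne_zero h1.1 h2.1, ?_, ?_, ?_⟩
  · rw [e]; exact G.O.mul_mem _ _ h1.2.1 h2.2.1
  · rw [e, G.redF_mul h1.2.1 h2.2.1]; exact mul_ne_zero h1.2.2.1 h2.2.2.1
  · rw [e, G.redF_mul h1.2.1 h2.2.1, x.ord_mul h1.2.2.1 h2.2.2.1, h1.2.2.2, h2.2.2.2]

theorem GSlope.inv {h : F} {a : L} {m : ℤ} (h1 : GSlope G x h a m) :
    GSlope G x h⁻¹ a⁻¹ (-m) := by
  have e : (algebraMap L F a⁻¹)⁻¹ * h⁻¹ = ((algebraMap L F a)⁻¹ * h)⁻¹ := by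
    rw [map_inv₀, mul_inv]
  refine ⟨inv_ne_zero h1.1, ?_, ?_, ?_⟩
  · rw [e]; exact G.inv_mem_of_redF_ne_zero h1.2.2.1
  · rw [e, G.redF_inv h1.2.2.1]; exact inv_ne_zero h1.2.2.1
  · rw [e, G.redF_inv h1.2.2.1, x.ord_inv, h1.2.2.2]

theorem GSlope.zpow {h : F} {a : L} {m : ℤ} (h1 : GSlope G x h a m) (n : ℤ) :
    GSlope G x (h ^ n) (a ^ n) (n * m) := by
  have e : (algebraMap L F (a ^ n))⁻¹ * h ^ n = ((algebraMap L F a)⁻¹ * h) ^ n := by
    rw [map_zpow₀, ← inv_zpow, ← mul_zpow]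
  refine ⟨zpow_ne_zero _ h1.1, ?_, ?_, ?_⟩
  · rw [e]; exact G.mem_of_redF_ne_zero (AnnDatum.redF_zpow_ne_zero G h1.2.2.1 n)
  · rw [e]; exact AnnDatum.redF_zpow_ne_zero G h1.2.2.1 n
  · rw [e, AnnDatum.redF_zpow_of_unit G h1.2.2.1, x.ord_zpow, h1.2.2.2]

theorem GSlope.const {b : L} (hb : b ≠ 0) : GSlope G x (algebraMap L F b) b 0 := by
  have e : (algebraMap L F b)⁻¹ * algebraMap L F b = 1 := inv_mul_cancel₀ ((map_ne_zero _).2 hb)
  refine ⟨hb, ?_, ?_, ?_⟩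
  · rw [e]; exact G.O.one_mem
  · rw [e, G.redF_one]; exact one_ne_zero
  · rw [e, G.redF_one, x.ord_one]

theorem GSlope.one : GSlope G x (1 : F) 1 0 := by
  have := GSlope.const (G := G) (x := x) (b := (1 : L)) one_ne_zero
  rwa [map_one] at this

theorem GSlope.prod {ι : Type*} (s : Finset ι) (h : ι → F) (a : ι → L) (m : ι → ℤ)
    (hs : ∀ i ∈ s, GSlope G x (h i) (a i) (m i)) :
    GSlope G x (∏ i ∈ s, h i) (∏ i ∈ s, a i) (∑ i ∈ s, m i) := by
  classical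
  induction s using Finset.induction_on with
  | empty => simpa using GSlope.one (G := G) (x := x)
  | insert i s hi ih =>
    rw [Finset.prod_insert hi, Finset.prod_insert hi, Finset.sum_insert hi]
    exact (hs i (Finset.mem_insert_self i s)).mul
      (ih fun j hj => hs j (Finset.mem_insert_of_mem hj))

theorem GSlope.unique {h : F} {a a' : L} {m m' : ℤ} (h1 : GSlope G x h a m)
    (h2 : GSlope G x h a' m') : A.valuation a = A.valuation a' ∧ m = m' := by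
  obtain ⟨e1, e2⟩ := AnnDatum.norm_unique G x h1.1 h2.1 h1.2.2.1 h2.2.2.1
  exact ⟨e1, by rw [← h1.2.2.2, ← h2.2.2.2, e2]⟩

/-- a function with nonzero reduction is normalised by `1` -/
theorem GSlope.of_redF_ne_zero {h : F} (hr : G.redF h ≠ 0) : GSlope G x h 1 (x.ord (G.redF h)) := by
  have e : (algebraMap L F 1)⁻¹ * h = h := by rw [map_one, inv_one, one_mul]
  refine ⟨one_ne_zero, ?_, ?_, ?_⟩
  · rw [e]; exact G.mem_of_redF_ne_zero hr
  · rw [e]; exact hr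
  · rw [e]

theorem GSlope.redF_ne_zero_of_one {h : F} {m : ℤ} (hs : GSlope G x h 1 m) :
    G.redF h ≠ 0 ∧ x.ord (G.redF h) = m := by
  have e : (algebraMap L F 1)⁻¹ * h = h := by rw [map_one, inv_one, one_mul]
  have h3 := hs.2.2.1
  have h4 := hs.2.2.2
  rw [e] at h3 h4
  exact ⟨h3, h4⟩

end GSlope

namespace AnnDatum

variable (D : AnnDatum A F F₁ F₂)

theorem slope₁_iff {c : Fin D.nod.s} {h : F} {a : L} {m : ℤ} :
    D.Slope₁ c h a m ↔ GSlope D.nod.V₁ (D.nod.x₁ c) h a m := Iff.rfl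

theorem slope₂_iff {c : Fin D.nod.s} {h : F} {a : L} {m : ℤ} :
    D.Slope₂ c h a m ↔ GSlope D.nod.V₂ (D.nod.x₂ c) h a m := Iff.rfl

/-! ### explicit slopes -/

theorem slope₁_z (c : Fin D.nod.s) : D.Slope₁ c (D.z c) 1 1 := by
  have := GSlope.of_redF_ne_zero (G := D.nod.V₁) (x := D.nod.x₁ c) (D.z_red₁ c)
  rwa [D.z_ord₁ c] at this

theorem slope₂_z (c : Fin D.nod.s) : D.Slope₂ c (D.z c) (D.pi c) (-1) := by
  have h1 : GSlope D.nod.V₂ (D.nod.x₂ c) (D.z' c) 1 1 := by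
    have := GSlope.of_redF_ne_zero (G := D.nod.V₂) (x := D.nod.x₂ c) (D.z'_red₂ c)
    rwa [D.z'_ord₂ c] at this
  have h2 := (GSlope.const (G := D.nod.V₂) (x := D.nod.x₂ c) (D.pi_ne_zero c)).mul h1.inv
  have e : algebraMap L F (D.pi c) * (D.z' c)⁻¹ = D.z c := by
    unfold z'
    rw [mul_inv, inv_inv, ← mul_assoc, mul_inv_cancel₀ ((map_ne_zero _).2 (D.pi_ne_zero c)),
      one_mul]
  rw [e] at h2
  exact h2.congr (by rw [inv_one, mul_one]) (by ring)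

/-- the coordinate of a point of the annulus lies in `A` and has residue `0` -/
theorem slope₁_z_sub {c : Fin D.nod.s} {a : L} (ha1 : A.valuation a < 1) :
    D.Slope₁ c (D.z c - algebraMap L F a) 1 1 := by
  have hA : a ∈ A := (A.valuation_le_one_iff _).1 ha1.le
  have hred : D.nod.V₁.redF (D.z c - algebraMap L F a) = D.nod.V₁.redF (D.z c) := by
    rw [D.nod.V₁.redF_sub (D.z_mem₁ c) (D.nod.V₁.algebraMap_mem ⟨a, hA⟩)]
    have : D.nod.V₁.redF (algebraMap L F ((⟨a, hA⟩ : A) : L)) = 0 := by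
      rw [D.nod.V₁.redF_algebraMap_eq_zero_iff, A.valuation_lt_one_iff]
      exact ha1
    rw [this, sub_zero]
  have := GSlope.of_redF_ne_zero (G := D.nod.V₁) (x := D.nod.x₁ c)
    (h := D.z c - algebraMap L F a) (by rw [hred]; exact D.z_red₁ c)
  rwa [hred, D.z_ord₁ c] at this

theorem slope₂_z_sub {c : Fin D.nod.s} {a : L} (ha0 : A.valuation (D.pi c) < A.valuation a) :
    D.Slope₂ c (D.z c - algebraMap L F a) (-a) 0 := by
  have ha : a ≠ 0 := by
    rintro rfl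
    rw [map_zero] at ha0
    exact not_lt_zero ha0
  have hva : A.valuation a ≠ 0 := (Valuation.ne_zero_iff _).2 ha
  have hb1 : A.valuation (D.pi c / a) < 1 := by
    rw [map_div₀]
    exact (div_lt_one₀ (lt_of_le_of_ne zero_le hva.symm)).2 ha0
  have hbA : D.pi c / a ∈ A := (A.valuation_le_one_iff _).1 hb1.le
  -- `w = (pi / a) z'⁻¹ = z / a` is integral with reduction `0`
  have hz'i : (D.z' c)⁻¹ ∈ D.nod.V₂.O := D.nod.V₂.inv_mem_of_redF_ne_zero (D.z'_red₂ c)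
  have hw : algebraMap L F ((⟨D.pi c / a, hbA⟩ : A) : L) * (D.z' c)⁻¹ ∈ D.nod.V₂.O :=
    D.nod.V₂.smul_mem _ hz'i
  have hwred : D.nod.V₂.redF (algebraMap L F ((⟨D.pi c / a, hbA⟩ : A) : L) * (D.z' c)⁻¹) = 0 := by
    rw [D.nod.V₂.redF_smul _ hz'i]
    have : IsLocalRing.residue A ⟨D.pi c / a, hbA⟩ = 0 := by
      rw [IsLocalRing.residue_eq_zero_iff, A.valuation_lt_one_iff]
      exact hb1
    rw [this, zero_smul]
  have e : (algebraMap L F (-a))⁻¹ * (D.z c - algebraMap L F a) =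
      1 - algebraMap L F ((⟨D.pi c / a, hbA⟩ : A) : L) * (D.z' c)⁻¹ := by
    show _ = 1 - algebraMap L F (D.pi c / a) * (D.z' c)⁻¹
    unfold z'
    have h1 : algebraMap L F a ≠ 0 := (map_ne_zero _).2 ha
    have h2 : algebraMap L F (D.pi c) ≠ 0 := (map_ne_zero _).2 (D.pi_ne_zero c)
    have h3 := D.z_ne_zero c
    rw [map_neg, map_div₀]
    field_simp
    ring
  have hred : D.nod.V₂.redF ((algebraMap L F (-a))⁻¹ * (D.z c - algebraMap L F a)) = 1 := by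
    rw [e, D.nod.V₂.redF_sub D.nod.V₂.O.one_mem hw, D.nod.V₂.redF_one, hwred, sub_zero]
  refine ⟨neg_ne_zero.2 ha, ?_, ?_, ?_⟩
  · rw [e]; exact sub_mem D.nod.V₂.O.one_mem hw
  · rw [hred]; exact one_ne_zero
  · rw [hred, (D.nod.x₂ c).ord_one]

theorem slope₁_cut {c : Fin D.nod.s} {Δ : Divisor L F}
    (hΔ : ∀ P ∈ Δ.support, D.ann P = some c) :
    D.Slope₁ c (D.cut c Δ) 1 (Δ.sum fun _ n => n) := by
  have := GSlope.prod (G := D.nod.V₁) (x := D.nod.x₁ c) Δ.support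
    (fun P => (D.z c - algebraMap L F (D.zval c P)) ^ Δ P) (fun P => (1 : L) ^ Δ P)
    (fun P => Δ P * 1)
    (fun P hP => GSlope.zpow (D.slope₁_iff.1 (D.slope₁_z_sub (c := c) (D.z_lt_one P c (hΔ P hP)))) (Δ P))
  refine GSlope.congr this ?_ ?_
  · exact Finset.prod_eq_one fun P _ => one_zpow _
  · simp only [mul_one]; rfl

theorem slope₂_cut {c : Fin D.nod.s} {Δ : Divisor L F}
    (hΔ : ∀ P ∈ Δ.support, D.ann P = some c) :
    D.Slope₂ c (D.cut c Δ) (∏ P ∈ Δ.support, (-D.zval c P) ^ Δ P) 0 := by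
  have := GSlope.prod (G := D.nod.V₂) (x := D.nod.x₂ c) Δ.support
    (fun P => (D.z c - algebraMap L F (D.zval c P)) ^ Δ P) (fun P => (-D.zval c P) ^ Δ P)
    (fun P => Δ P * 0)
    (fun P hP => GSlope.zpow (D.slope₂_iff.1 (D.slope₂_z_sub (c := c) (D.pi_lt_z P c (hΔ P hP)))) (Δ P))
  refine GSlope.congr this rfl ?_
  simp

/-! ### unit propagation across an annulus -/

theorem mem_of_norm_mem {Fk : Type*} [Field Fk] [Algebra (IsLocalRing.ResidueField A) Fk]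
    (G : GaussDatum A F Fk) {f : F} {a : L} (ha : a ≠ 0) (hA : a ∈ A)
    (hm : (algebraMap L F a)⁻¹ * f ∈ G.O) : f ∈ G.O := by
  have hA0 : algebraMap L F a ≠ 0 := (map_ne_zero _).2 ha
  have e : f = algebraMap L F ((⟨a, hA⟩ : A) : L) * ((algebraMap L F a)⁻¹ * f) := by
    show f = algebraMap L F a * _
    field_simp
  rw [e]
  exact G.smul_mem _ hm

theorem value_ne_zero_of_ord_eq_zero {K Fk : Type*} [Field K] [Field Fk] [Algebra K Fk]
    {Q : Place K Fk} {φ : Fk} {α : K} (hv : HasValueAt Q φ α) (h0 : φ ≠ 0) (ho : Q.ord φ = 0) :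
    α ≠ 0 := by
  rintro rfl
  rcases hasValueAt_zero_iff.1 hv with h | h
  · exact h0 h
  · rw [ho] at h; exact lt_irrefl _ h

/-- **unit propagation**: a function without zero or pole in the annulus `c` which is a unit at the
node point `x₁ c` (on the first component) is a unit at `x₂ c` (on the second component) -/
theorem slope₂_of_unit₁ (hG : D.GlueAnn) {c : Fin D.nod.s} {h : F} (hS : D.Slope₁ c h 1 0)
    (hnz : ∀ Q, D.ann Q = some c → Q.ord h = 0) : D.Slope₂ c h 1 0 := by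
  obtain ⟨hr₁, ho₁⟩ := GSlope.redF_ne_zero_of_one (D.slope₁_iff.1 hS)
  have hh : h ≠ 0 := GSlope.ne_zero (D.slope₁_iff.1 hS)
  obtain ⟨a₂, m₂, hs₂⟩ := D.exists_Slope₂ hh c
  have hmem₁ : h ∈ D.nod.V₁.O := D.nod.V₁.mem_of_redF_ne_zero hr₁
  by_cases hle : A.valuation a₂ ≤ 1
  · have hA₂ : a₂ ∈ A := (A.valuation_le_one_iff _).1 hle
    have hmem₂ : h ∈ D.nod.V₂.O := mem_of_norm_mem D.nod.V₂ hs₂.1 hA₂ hs₂.2.1
    obtain ⟨α, hv₁, hv₂⟩ := hG h c hmem₁ hmem₂ fun P hP => by rw [hnz P hP]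
    have hα : α ≠ 0 := value_ne_zero_of_ord_eq_zero hv₁ hr₁ ho₁
    have := GSlope.of_redF_ne_zero (G := D.nod.V₂) (x := D.nod.x₂ c) (hv₂.ne_zero hα)
    rw [hv₂.ord_eq_zero hα] at this
    exact this
  · exfalso
    have hgt : 1 < A.valuation a₂ := not_le.1 hle
    have hs₂i := GSlope.inv (D.slope₂_iff.1 hs₂)
    have hlt : A.valuation a₂⁻¹ < 1 := by
      rw [map_inv₀]
      exact inv_lt_one_of_one_lt₀ hgt
    have hAi : a₂⁻¹ ∈ A := (A.valuation_le_one_iff _).1 hlt.le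
    have hmem₂ : h⁻¹ ∈ D.nod.V₂.O := mem_of_norm_mem D.nod.V₂ hs₂i.1 hAi hs₂i.2.1
    have hmem₁' : h⁻¹ ∈ D.nod.V₁.O := D.nod.V₁.inv_mem_of_redF_ne_zero hr₁
    have hz₂ : HasValueAt (D.nod.x₂ c) (D.nod.V₂.redF h⁻¹) 0 :=
      hasValueAt_zero_of_norm_lt D.nod.V₂ (D.nod.x₂ c) hs₂i.1 hAi hlt hs₂i.2.2.1
    obtain ⟨α, hv₁, hv₂⟩ := hG h⁻¹ c hmem₁' hmem₂ fun P hP => by
      rw [P.ord_inv, hnz P hP, neg_zero]
    have hα : α ≠ 0 := by
      refine value_ne_zero_of_ord_eq_zero hv₁ ?_ ?_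
      · rw [D.nod.V₁.redF_inv hr₁]; exact inv_ne_zero hr₁
      · rw [D.nod.V₁.redF_inv hr₁, (D.nod.x₁ c).ord_inv, ho₁, neg_zero]
    exact hα (hv₂.unique hz₂)

/-! ### the slope law -/

/-- **the slope law**: per-annulus conservation and the slope formula, for all functions, all nodes
and all normalisations -/
def SlopeLaw : Prop :=
  ∀ h : F, h ≠ 0 → ∀ (c : Fin D.nod.s) (a₁ a₂ : L) (m₁ m₂ : ℤ),
    D.Slope₁ c h a₁ m₁ → D.Slope₂ c h a₂ m₂ →
      m₁ + m₂ = D.annDeg c h ∧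
        A.valuation a₁ * D.radProd c h = A.valuation a₂ * A.valuation (D.pi c) ^ m₂

theorem slopeLaw_of_fact (h1 : D.Fact₁) (h2 : D.Fact₂) : D.SlopeLaw :=
  fun _ hh _ _ _ _ _ hs₁ hs₂ => D.slope_formula h1 h2 hh hs₁ hs₂

theorem ord_z_eq_zero {c : Fin D.nod.s} {Q : Place L F} (hQ : D.ann Q = some c) :
    Q.ord (D.z c) = 0 :=
  (ev_ne_zero_iff_ord (D.deg_ann Q c hQ) (D.z_regAt Q c hQ) (D.z_ne_zero c)).1 (D.zval_ne_zero hQ)

/-- **the slope law from (GLUE-ann) alone** -/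
theorem slopeLaw_of_glueAnn (hG : D.GlueAnn) : D.SlopeLaw := by
  intro h hh c a₁ a₂ m₁ m₂ hs₁ hs₂
  have hΔ : ∀ P ∈ (D.annDiv c h).support, D.ann P = some c :=
    fun P hP => (D.mem_support_annDiv.1 hP).2
  have hC0 := D.cut_ne_zero hΔ
  -- `ht = h / cut` has no zero or pole in the annulus
  have ht0 : h * (D.cut c (D.annDiv c h))⁻¹ ≠ 0 := mul_ne_zero hh (inv_ne_zero hC0)
  have hdiv : D.annDiv c (h * (D.cut c (D.annDiv c h))⁻¹) = 0 := by
    rw [D.annDiv_mul hh (inv_ne_zero hC0), D.annDiv_inv, D.annDiv_cut hΔ, add_neg_cancel]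
  obtain ⟨b₁, k₁, hb⟩ := D.exists_Slope₁ ht0 c
  have hb0 : algebraMap L F b₁ ≠ 0 := (map_ne_zero _).2 hb.1
  have hz0 := D.z_ne_zero c
  -- `h₀ = ht / (b₁ z ^ k₁)` is a unit at `x₁ c` without zero or pole in the annulus
  have hS₀ : D.Slope₁ c
      (algebraMap L F b₁⁻¹ * (h * (D.cut c (D.annDiv c h))⁻¹) * D.z c ^ (-k₁)) 1 0 := by
    refine GSlope.congr (((GSlope.const (inv_ne_zero hb.1)).mul (D.slope₁_iff.1 hb)).mul
      (GSlope.zpow (D.slope₁_iff.1 (D.slope₁_z c)) (-k₁))) ?_ ?_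
    · rw [inv_mul_cancel₀ hb.1, one_zpow, mul_one]
    · ring
  have hnz : ∀ Q, D.ann Q = some c → Q.ord
      (algebraMap L F b₁⁻¹ * (h * (D.cut c (D.annDiv c h))⁻¹) * D.z c ^ (-k₁)) = 0 := by
    intro Q hQ
    have h1 : Q.ord (h * (D.cut c (D.annDiv c h))⁻¹) = 0 := by
      rw [← D.annDiv_apply_of_mem hQ, hdiv]; rfl
    rw [Q.ord_mul (mul_ne_zero ((map_ne_zero _).2 (inv_ne_zero hb.1)) ht0) (zpow_ne_zero _ hz0),
      Q.ord_mul ((map_ne_zero _).2 (inv_ne_zero hb.1)) ht0,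
      ord_algebraMap_eq_zero Q (inv_ne_zero hb.1), h1, Q.ord_zpow, D.ord_z_eq_zero hQ]
    ring
  have hS₂₀ := D.slope₂_of_unit₁ hG hS₀ hnz
  -- reconstruct `h`
  have eh : h = D.cut c (D.annDiv c h) * (algebraMap L F b₁ * D.z c ^ k₁ *
      (algebraMap L F b₁⁻¹ * (h * (D.cut c (D.annDiv c h))⁻¹) * D.z c ^ (-k₁))) := by
    rw [map_inv₀, zpow_neg]
    have hzk : D.z c ^ k₁ ≠ 0 := zpow_ne_zero _ hz0
    field_simp
  have t₁ : GSlope D.nod.V₁ (D.nod.x₁ c) h (1 * (b₁ * 1 ^ k₁ * 1))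
      (((D.annDiv c h).sum fun _ n => n) + (0 + k₁ * 1 + 0)) := by
    have := (D.slope₁_iff.1 (D.slope₁_cut hΔ)).mul
      (((GSlope.const (G := D.nod.V₁) (x := D.nod.x₁ c) hb.1).mul
        (GSlope.zpow (D.slope₁_iff.1 (D.slope₁_z c)) k₁)).mul (D.slope₁_iff.1 hS₀))
    rwa [← eh] at this
  have t₂ : GSlope D.nod.V₂ (D.nod.x₂ c) h
      ((∏ P ∈ (D.annDiv c h).support, (-D.zval c P) ^ (D.annDiv c h) P) *
        (b₁ * D.pi c ^ k₁ * 1)) (0 + (0 + k₁ * (-1) + 0)) := by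
    have := (D.slope₂_iff.1 (D.slope₂_cut hΔ)).mul
      (((GSlope.const (G := D.nod.V₂) (x := D.nod.x₂ c) hb.1).mul
        (GSlope.zpow (D.slope₂_iff.1 (D.slope₂_z c)) k₁)).mul (D.slope₂_iff.1 hS₂₀))
    rwa [← eh] at this
  obtain ⟨u1, u2⟩ := GSlope.unique (D.slope₁_iff.1 hs₁) t₁
  obtain ⟨v1, v2⟩ := GSlope.unique (D.slope₂_iff.1 hs₂) t₂
  have hpi0 : A.valuation (D.pi c) ≠ 0 := (Valuation.ne_zero_iff _).2 (D.pi_ne_zero c)
  have eR : A.valuation (∏ P ∈ (D.annDiv c h).support, (-D.zval c P) ^ (D.annDiv c h) P) =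
      D.radProd c h := by
    rw [map_prod]
    unfold radProd
    rw [Finsupp.prod]
    refine Finset.prod_congr rfl fun P _ => ?_
    rw [map_zpow₀, Valuation.map_neg]
  refine ⟨?_, ?_⟩
  · rw [u2, v2]
    show _ = (D.annDiv c h).sum fun _ n => n
    ring
  · rw [u1, v1, v2]
    simp only [map_mul, map_zpow₀, one_zpow, one_mul, mul_one, eR]
    have e3 : (0 : ℤ) + (0 + k₁ * (-1) + 0) = -k₁ := by ring
    rw [e3, zpow_neg, mul_comm (A.valuation b₁) (D.radProd c h), mul_assoc, mul_assoc,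
      mul_inv_cancel₀ (zpow_ne_zero _ hpi0), mul_one]

end AnnDatum

end Fermat.Agent.S44lib.Ann
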