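/-
S44lib / Ann / Sep  (helper9)  — Project LSq, block M1

**(GLUE-ann) from (RED) + separating functions.**

`Sep` : for every point `P` of an annulus `c' ≠ c` there is `u ∈ O₁ ∩ O₂`, with all its poles on the
smooth locus, vanishing at `P`, whose two reductions have the value `1` at the node `c`.
(Instance: `redSub L(nY - P)` is the hyperplane of `NS(nȲ)` of the sections vanishing at the node of
`P` — `NRed.exists_base_point` — and that hyperplane contains sections with value `1` at any other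
node.)

`glueAnn_of_sep : Sep → GlueAnn` : multiply `f` by a product of separating functions killing its
poles in the other annuli and apply `NRedDatum.red_mem`.
-/
import Fermat.Agent.S44lib.Ann.Law

set_option autoImplicit false
set_option linter.unusedSectionVars false

noncomputable section

namespace Fermat.Agent.S44lib.Ann

open AlgebraicCurve Fermat.Agent.LSb Fermat.Agent.S18lib Fermat.Agent.S33lib
open Fermat.Agent.S19lib.C

variable {L : Type*} [Field L] {A : ValuationSubring L}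
variable {F : Type*} [Field F] [Algebra L F] [HasPrincipalDivisors L F]
variable {F₁ F₂ : Type*} [Field F₁] [Field F₂]
variable [Algebra (IsLocalRing.ResidueField A) F₁] [Algebra (IsLocalRing.ResidueField A) F₂]

/-- the order of a product of powers -/
theorem ord_prod_pow {K E : Type*} [Field K] [Field E] [Algebra K E] (Q : Place K E) {ι : Type*}
    (s : Finset ι) (w : ι → E) (n : ι → ℕ) (hw : ∀ i ∈ s, w i ≠ 0) :
    Q.ord (∏ i ∈ s, w i ^ n i) = ∑ i ∈ s, (n i : ℤ) * Q.ord (w i) := by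
  classical
  induction s using Finset.induction_on with
  | empty => simp [Q.ord_one]
  | insert a s ha ih =>
    have h1 : w a ^ n a ≠ 0 := pow_ne_zero _ (hw a (Finset.mem_insert_self a s))
    have h2 : ∏ i ∈ s, w i ^ n i ≠ 0 :=
      Finset.prod_ne_zero_iff.2 fun i hi => pow_ne_zero _ (hw i (Finset.mem_insert_of_mem hi))
    rw [Finset.prod_insert ha, Finset.sum_insert ha, Q.ord_mul h1 h2,
      ih fun i hi => hw i (Finset.mem_insert_of_mem hi), ← zpow_natCast, Q.ord_zpow]

/-- a product of powers of integral functions whose reductions have the value `1` at `x` -/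
theorem prod_pow_value_one {Fk : Type*} [Field Fk] [Algebra (IsLocalRing.ResidueField A) Fk]
    (G : GaussDatum A F Fk) (x : Place (IsLocalRing.ResidueField A) Fk) {ι : Type*}
    (s : Finset ι) (w : ι → F) (n : ι → ℕ)
    (hw : ∀ i ∈ s, w i ∈ G.O ∧ HasValueAt x (G.redF (w i)) 1) :
    (∏ i ∈ s, w i ^ n i) ∈ G.O ∧ HasValueAt x (G.redF (∏ i ∈ s, w i ^ n i)) 1 := by
  classical
  induction s using Finset.induction_on with
  | empty =>
    refine ⟨by rw [Finset.prod_empty]; exact G.O.one_mem, ?_⟩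
    simp only [Finset.prod_empty, G.redF_one]
    exact hasValueAt_one
  | insert a s ha ih =>
    obtain ⟨h1, h2⟩ := hw a (Finset.mem_insert_self a s)
    obtain ⟨h3, h4⟩ := ih fun i hi => hw i (Finset.mem_insert_of_mem hi)
    have h5 : w a ^ n a ∈ G.O := pow_mem h1 _
    rw [Finset.prod_insert ha]
    refine ⟨G.O.mul_mem _ _ h5 h3, ?_⟩
    rw [G.redF_mul h5 h3, G.redF_pow h1]
    simpa using (h2.pow (n a)).mul h4

namespace AnnDatum

variable (D : AnnDatum A F F₁ F₂)

/-- **(SEP)** separating functions -/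
def Sep : Prop :=
  ∀ c c' : Fin D.nod.s, c' ≠ c → ∀ P : Place L F, D.ann P = some c' →
    ∃ u : F, u ∈ D.nod.V₁.O ∧ u ∈ D.nod.V₂.O ∧ (∀ Q : Place L F, Q.ord u < 0 → D.r Q ≠ none) ∧
      0 < P.ord u ∧ HasValueAt (D.nod.x₁ c) (D.nod.V₁.redF u) 1 ∧
      HasValueAt (D.nod.x₂ c) (D.nod.V₂.redF u) 1

/-- the polar divisor of a function -/
def polar (w : F) : Divisor L F :=
  (divOf (K := L) w).mapRange (fun a => max (-a) 0) (by simp)

theorem polar_apply (w : F) (P : Place L F) : polar w P = max (-(P.ord w)) 0 := by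
  unfold polar
  rw [Finsupp.mapRange_apply, divOf_apply']

theorem mem_rr_polar (w : F) : w ∈ riemannRochSpace (polar (L := L) w) := by
  rw [mem_riemannRochSpace_iff]
  intro v
  right
  rw [polar_apply]
  have := le_max_left (-(v.ord w)) 0
  omega

/-- **(GLUE-ann) from (SEP) and (RED)** -/
theorem glueAnn_of_sep (hS : D.Sep) : D.GlueAnn := by
  classical
  intro f c hf₁ hf₂ hpole
  by_cases hf0 : f = 0
  · subst hf0
    refine ⟨0, ?_, ?_⟩
    · rw [D.nod.V₁.redF_zero]; exact hasValueAt_zero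
    · rw [D.nod.V₂.redF_zero]; exact hasValueAt_zero
  -- the poles of `f` outside the smooth locus
  set S : Finset (Place L F) :=
    (divOf (K := L) f).support.filter fun P => P.ord f < 0 ∧ D.r P = none with hSdef
  have hmemS : ∀ P, P ∈ S ↔ P.ord f < 0 ∧ D.r P = none := by
    intro P
    rw [hSdef, Finset.mem_filter, Finsupp.mem_support_iff, divOf_apply']
    constructor
    · exact fun h => h.2
    · exact fun h => ⟨by omega, h⟩
  have hch : ∀ P ∈ S, ∃ u : F, u ∈ D.nod.V₁.O ∧ u ∈ D.nod.V₂.O ∧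
      (∀ Q : Place L F, Q.ord u < 0 → D.r Q ≠ none) ∧ 0 < P.ord u ∧
      HasValueAt (D.nod.x₁ c) (D.nod.V₁.redF u) 1 ∧
      HasValueAt (D.nod.x₂ c) (D.nod.V₂.redF u) 1 := by
    intro P hP
    obtain ⟨hneg, hr⟩ := (hmemS P).1 hP
    cases hann : D.ann P with
    | none => exact absurd hr ((D.ann_eq_none_iff P).1 hann)
    | some c' =>
      have hne : c' ≠ c := by
        rintro rfl
        have := hpole P hann
        omega
      exact hS c c' hne P hann
  choose! u hu using hch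
  set n : Place L F → ℕ := fun P => (-(P.ord f)).toNat with hn
  set U : F := ∏ P ∈ S, u P ^ n P with hUdef
  have hu0 : ∀ P ∈ S, u P ≠ 0 := by
    intro P hP h0
    have h1 := (hu P hP).2.2.2.2.1
    rw [h0, D.nod.V₁.redF_zero] at h1
    exact one_ne_zero (h1.eq_zero_of_eq_zero)
  obtain ⟨hU₁, hUv₁⟩ := prod_pow_value_one D.nod.V₁ (D.nod.x₁ c) S u n
    fun P hP => ⟨(hu P hP).1, (hu P hP).2.2.2.2.1⟩
  obtain ⟨hU₂, hUv₂⟩ := prod_pow_value_one D.nod.V₂ (D.nod.x₂ c) S u n
    fun P hP => ⟨(hu P hP).2.1, (hu P hP).2.2.2.2.2⟩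
  have hU0 : U ≠ 0 := Finset.prod_ne_zero_iff.2 fun P hP => pow_ne_zero _ (hu0 P hP)
  -- `U f` has all its poles on the smooth locus
  have hord : ∀ Q : Place L F, D.r Q = none → 0 ≤ Q.ord (U * f) := by
    intro Q hQ
    have hterm : ∀ P ∈ S, 0 ≤ (n P : ℤ) * Q.ord (u P) := by
      intro P hP
      refine mul_nonneg (Int.natCast_nonneg _) ?_
      by_contra hlt
      exact (hu P hP).2.2.1 Q (not_le.1 hlt) hQ
    rw [Q.ord_mul hU0 hf0, hUdef, ord_prod_pow Q S u n hu0]
    by_cases hQS : Q ∈ S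
    · have h1 : (n Q : ℤ) * Q.ord (u Q) ≤ ∑ P ∈ S, (n P : ℤ) * Q.ord (u P) :=
        Finset.single_le_sum hterm hQS
      have h2 : (n Q : ℤ) = -(Q.ord f) := by
        rw [hn]
        exact Int.toNat_of_nonneg (by have := ((hmemS Q).1 hQS).1; omega)
      have h3 := (hu Q hQS).2.2.2.1
      have h4 : (n Q : ℤ) ≤ (n Q : ℤ) * Q.ord (u Q) := by
        have : (0 : ℤ) ≤ n Q := Int.natCast_nonneg _
        nlinarith
      omega
    · have h1 : 0 ≤ ∑ P ∈ S, (n P : ℤ) * Q.ord (u P) := Finset.sum_nonneg hterm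
      have h2 : 0 ≤ Q.ord f := by
        by_contra hlt
        exact hQS ((hmemS Q).2 ⟨not_le.1 hlt, hQ⟩)
      omega
  have hsm : ∀ P, polar (L := L) (U * f) P ≠ 0 → D.r P ≠ none := by
    intro P hP hr
    apply hP
    rw [polar_apply, max_eq_right]
    have := hord P hr
    omega
  have hred := D.red_mem (polar (U * f)) hsm (U * f) (mem_rr_polar _)
    (D.nod.V₁.O.mul_mem _ _ hU₁ hf₁) (D.nod.V₂.O.mul_mem _ _ hU₂ hf₂)
  obtain ⟨α, hα₁, hα₂⟩ := hred.2.2 c
  have e₁ : (D.nod.redF (U * f)).1 = D.nod.V₁.redF U * D.nod.V₁.redF f :=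
    D.nod.V₁.redF_mul hU₁ hf₁
  have e₂ : (D.nod.redF (U * f)).2 = D.nod.V₂.redF U * D.nod.V₂.redF f :=
    D.nod.V₂.redF_mul hU₂ hf₂
  have hv₁ : HasValueAt (D.nod.x₁ c) (D.nod.V₁.redF U * D.nod.V₁.redF f) α := by
    rw [← e₁]; exact hα₁
  have hv₂ : HasValueAt (D.nod.x₂ c) (D.nod.V₂.redF U * D.nod.V₂.redF f) α := by
    rw [← e₂]
    have := hα₂
    rwa [Pi.one_apply, one_mul] at this
  have hUr₁ : D.nod.V₁.redF U ≠ 0 := hUv₁.ne_zero one_ne_zero
  have hUr₂ : D.nod.V₂.redF U ≠ 0 := hUv₂.ne_zero one_ne_zero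
  refine ⟨α, ?_, ?_⟩
  · have := (hUv₁.inv one_ne_zero).mul hv₁
    rwa [← mul_assoc, inv_mul_cancel₀ hUr₁, one_mul, inv_one, one_mul] at this
  · have := (hUv₂.inv one_ne_zero).mul hv₂
    rwa [← mul_assoc, inv_mul_cancel₀ hUr₂, one_mul, inv_one, one_mul] at this

end AnnDatum

end Fermat.Agent.S44lib.Ann
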