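/-
S44lib / Ann / Pre  (helper9)  — Project LSq, block M1: the PRE-annulus datum (instance side)

What the modular instance has to supply in order to get an `AnnDatum` (see `Ann/Count.lean` for
`PreAnnDatum.toAnnDatum`):

* `PreAnnDatum` : the nodal reduction datum `N.NRedDatum` + ONE thickness constant `pi ∈ 𝔪_A ∖ 0`,
  ONE uniform coordinate `z ∈ F` and the annulus map `ann` with
    - `ann P = none ↔ r P ≠ none`,
    - the POLES of `z` lie on the smooth locus (nothing is asked about the zeros),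
    - `red₁ z` has a simple zero at every node point `x₁ c`,
    - `z' = pi / z` is a `V₂`-unit whose reduction has a simple zero at every node point `x₂ c`.
  NO radius inequality, NO injectivity, NO surjectivity, NO local parameter statement: all of them are
  THEOREMS (`Ann/Count.lean`), by counting zeros.
* `SepOn`, `GlueOn` : (SEP) and (GLUE-ann) for an arbitrary annulus map over a nodal reduction datum,
  `glueOn_of_sepOn : SepOn → GlueOn` (same proof as `AnnDatum.glueAnn_of_sep`, which is the special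
  case: `AnnDatum.sep_iff_sepOn`, `AnnDatum.glueAnn_iff_glueOn` are `Iff.rfl`).
* `dense_of_sqrt` : the field `dense` of `AnnDatum` from square roots in `L`.
-/
import Fermat.Agent.S44lib.Ann.Sep

set_option autoImplicit false
set_option linter.unusedSectionVars false

noncomputable section

namespace Fermat.Agent.S44lib.Ann

open AlgebraicCurve Fermat.Agent.LSb Fermat.Agent.S18lib Fermat.Agent.S33lib
open Fermat.Agent.S19lib.C

variable {L : Type*} [Field L] {A : ValuationSubring L}
variable {F : Type*} [Field F] [Algebra L F] [HasPrincipalDivisors L F]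
variable {F₁ F₂ : Type*} [Field F₁] [Field F₂]
variable [Algebra (IsLocalRing.ResidueField A) F₁] [Algebra (IsLocalRing.ResidueField A) F₂]

/-! ### the value group has no gaps -/

/-- if `L` has square roots and a nonzero element of the maximal ideal, the value group of `A` has
no gaps -/
theorem dense_of_sqrt (hsq : ∀ a : L, ∃ b : L, b * b = a) {ϖ : L} (hϖ0 : ϖ ≠ 0)
    (hϖ1 : A.valuation ϖ < 1) (a b : L) (hab : A.valuation a < A.valuation b) :
    ∃ t : L, A.valuation a < A.valuation t ∧ A.valuation t < A.valuation b := by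
  have hb0 : b ≠ 0 := by
    rintro rfl
    rw [map_zero] at hab
    exact not_lt_zero hab
  have hvb : 0 < A.valuation b := lt_of_le_of_ne zero_le ((Valuation.ne_zero_iff _).2 hb0).symm
  by_cases ha0 : a = 0
  · subst ha0
    refine ⟨ϖ * b, ?_, ?_⟩
    · rw [map_zero]
      exact lt_of_le_of_ne zero_le ((Valuation.ne_zero_iff _).2 (mul_ne_zero hϖ0 hb0)).symm
    · rw [map_mul]
      calc A.valuation ϖ * A.valuation b < 1 * A.valuation b := mul_lt_mul_of_pos_right hϖ1 hvb
        _ = A.valuation b := one_mul _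
  · obtain ⟨t, ht⟩ := hsq (a * b)
    have hva : 0 < A.valuation a := lt_of_le_of_ne zero_le ((Valuation.ne_zero_iff _).2 ha0).symm
    have hvt : A.valuation t * A.valuation t = A.valuation a * A.valuation b := by
      rw [← map_mul, ht, map_mul]
    refine ⟨t, ?_, ?_⟩
    · by_contra hle
      have hle' : A.valuation t ≤ A.valuation a := not_lt.1 hle
      have h1 : A.valuation t * A.valuation t ≤ A.valuation a * A.valuation a :=
        mul_le_mul' hle' hle'
      have h2 : A.valuation a * A.valuation a < A.valuation a * A.valuation b :=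
        mul_lt_mul_of_pos_left hab hva
      rw [hvt] at h1
      exact absurd h2 (not_lt.2 h1)
    · by_contra hle
      have hle' : A.valuation b ≤ A.valuation t := not_lt.1 hle
      have h1 : A.valuation b * A.valuation b ≤ A.valuation t * A.valuation t :=
        mul_le_mul' hle' hle'
      have h2 : A.valuation a * A.valuation b < A.valuation b * A.valuation b :=
        mul_lt_mul_of_pos_right hab hvb
      rw [hvt] at h1
      exact absurd h2 (not_lt.2 h1)

/-! ### (SEP) and (GLUE-ann) for an arbitrary annulus map -/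

section Core

variable (D : N.NRedDatum A F F₁ F₂) (ann : Place L F → Option (Fin D.nod.s))

/-- **(SEP)** separating functions, for an arbitrary annulus map -/
def SepOn : Prop :=
  ∀ c c' : Fin D.nod.s, c' ≠ c → ∀ P : Place L F, ann P = some c' →
    ∃ u : F, u ∈ D.nod.V₁.O ∧ u ∈ D.nod.V₂.O ∧ (∀ Q : Place L F, Q.ord u < 0 → D.r Q ≠ none) ∧
      0 < P.ord u ∧ HasValueAt (D.nod.x₁ c) (D.nod.V₁.redF u) 1 ∧
      HasValueAt (D.nod.x₂ c) (D.nod.V₂.redF u) 1

/-- **(GLUE-ann)** for an arbitrary annulus map -/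
def GlueOn : Prop :=
  ∀ (f : F) (c : Fin D.nod.s), f ∈ D.nod.V₁.O → f ∈ D.nod.V₂.O →
    (∀ P, ann P = some c → 0 ≤ P.ord f) →
    ∃ α : IsLocalRing.ResidueField A,
      HasValueAt (D.nod.x₁ c) (D.nod.V₁.redF f) α ∧ HasValueAt (D.nod.x₂ c) (D.nod.V₂.redF f) α

/-- **(GLUE-ann) from (SEP) and (RED)**, for an arbitrary annulus map -/
theorem glueOn_of_sepOn (hann : ∀ P, ann P = none ↔ D.r P ≠ none) (hS : SepOn D ann) :
    GlueOn D ann := by
  classical
  intro f c hf₁ hf₂ hpole
  by_cases hf0 : f = 0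
  · subst hf0
    refine ⟨0, ?_, ?_⟩
    · rw [D.nod.V₁.redF_zero]; exact hasValueAt_zero
    · rw [D.nod.V₂.redF_zero]; exact hasValueAt_zero
  -- the poles of `f` outside the smooth locus
  set S : Finset (Place L F) :=
    (divOf (K := L) f).support.filter fun P => P.ord f < 0 ∧ D.r P = none with hSdef
  have hmemS : ∀ P, P ∈ S ↔ P.ord f < 0 ∧ D.r P = none := by
    intro P
    rw [hSdef, Finset.mem_filter, Finsupp.mem_support_iff, divOf_apply']
    constructor
    · exact fun h => h.2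
    · exact fun h => ⟨by omega, h⟩
  have hch : ∀ P ∈ S, ∃ u : F, u ∈ D.nod.V₁.O ∧ u ∈ D.nod.V₂.O ∧
      (∀ Q : Place L F, Q.ord u < 0 → D.r Q ≠ none) ∧ 0 < P.ord u ∧
      HasValueAt (D.nod.x₁ c) (D.nod.V₁.redF u) 1 ∧
      HasValueAt (D.nod.x₂ c) (D.nod.V₂.redF u) 1 := by
    intro P hP
    obtain ⟨hneg, hr⟩ := (hmemS P).1 hP
    cases hannP : ann P with
    | none => exact absurd hr ((hann P).1 hannP)
    | some c' =>
      have hne : c' ≠ c := by
        rintro rfl
        have := hpole P hannP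
        omega
      exact hS c c' hne P hannP
  choose! u hu using hch
  set n : Place L F → ℕ := fun P => (-(P.ord f)).toNat with hn
  set U : F := ∏ P ∈ S, u P ^ n P with hUdef
  have hu0 : ∀ P ∈ S, u P ≠ 0 := by
    intro P hP h0
    have h1 := (hu P hP).2.2.2.2.1
    rw [h0, D.nod.V₁.redF_zero] at h1
    exact one_ne_zero (h1.eq_zero_of_eq_zero)
  obtain ⟨hU₁, hUv₁⟩ := prod_pow_value_one D.nod.V₁ (D.nod.x₁ c) S u n
    fun P hP => ⟨(hu P hP).1, (hu P hP).2.2.2.2.1⟩
  obtain ⟨hU₂, hUv₂⟩ := prod_pow_value_one D.nod.V₂ (D.nod.x₂ c) S u n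
    fun P hP => ⟨(hu P hP).2.1, (hu P hP).2.2.2.2.2⟩
  have hU0 : U ≠ 0 := Finset.prod_ne_zero_iff.2 fun P hP => pow_ne_zero _ (hu0 P hP)
  -- `U f` has all its poles on the smooth locus
  have hord : ∀ Q : Place L F, D.r Q = none → 0 ≤ Q.ord (U * f) := by
    intro Q hQ
    have hterm : ∀ P ∈ S, 0 ≤ (n P : ℤ) * Q.ord (u P) := by
      intro P hP
      refine mul_nonneg (Int.natCast_nonneg _) ?_
      by_contra hlt
      exact (hu P hP).2.2.1 Q (not_le.1 hlt) hQ
    rw [Q.ord_mul hU0 hf0, hUdef, ord_prod_pow Q S u n hu0]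
    by_cases hQS : Q ∈ S
    · have h1 : (n Q : ℤ) * Q.ord (u Q) ≤ ∑ P ∈ S, (n P : ℤ) * Q.ord (u P) :=
        Finset.single_le_sum hterm hQS
      have h2 : (n Q : ℤ) = -(Q.ord f) := by
        rw [hn]
        exact Int.toNat_of_nonneg (by have := ((hmemS Q).1 hQS).1; omega)
      have h3 := (hu Q hQS).2.2.2.1
      have h4 : (n Q : ℤ) ≤ (n Q : ℤ) * Q.ord (u Q) := by
        have : (0 : ℤ) ≤ n Q := Int.natCast_nonneg _
        nlinarith
      omega
    · have h1 : 0 ≤ ∑ P ∈ S, (n P : ℤ) * Q.ord (u P) := Finset.sum_nonneg hterm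
      have h2 : 0 ≤ Q.ord f := by
        by_contra hlt
        exact hQS ((hmemS Q).2 ⟨not_le.1 hlt, hQ⟩)
      omega
  have hsm : ∀ P, AnnDatum.polar (L := L) (U * f) P ≠ 0 → D.r P ≠ none := by
    intro P hP hr
    apply hP
    rw [AnnDatum.polar_apply, max_eq_right]
    have := hord P hr
    omega
  have hred := D.red_mem (AnnDatum.polar (U * f)) hsm (U * f) (AnnDatum.mem_rr_polar _)
    (D.nod.V₁.O.mul_mem _ _ hU₁ hf₁) (D.nod.V₂.O.mul_mem _ _ hU₂ hf₂)
  obtain ⟨α, hα₁, hα₂⟩ := hred.2.2 c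
  have e₁ : (D.nod.redF (U * f)).1 = D.nod.V₁.redF U * D.nod.V₁.redF f :=
    D.nod.V₁.redF_mul hU₁ hf₁
  have e₂ : (D.nod.redF (U * f)).2 = D.nod.V₂.redF U * D.nod.V₂.redF f :=
    D.nod.V₂.redF_mul hU₂ hf₂
  have hv₁ : HasValueAt (D.nod.x₁ c) (D.nod.V₁.redF U * D.nod.V₁.redF f) α := by
    rw [← e₁]; exact hα₁
  have hv₂ : HasValueAt (D.nod.x₂ c) (D.nod.V₂.redF U * D.nod.V₂.redF f) α := by
    rw [← e₂]
    have := hα₂
    rwa [Pi.one_apply, one_mul] at this
  have hUr₁ : D.nod.V₁.redF U ≠ 0 := hUv₁.ne_zero one_ne_zero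
  have hUr₂ : D.nod.V₂.redF U ≠ 0 := hUv₂.ne_zero one_ne_zero
  refine ⟨α, ?_, ?_⟩
  · have := (hUv₁.inv one_ne_zero).mul hv₁
    rwa [← mul_assoc, inv_mul_cancel₀ hUr₁, one_mul, inv_one, one_mul] at this
  · have := (hUv₂.inv one_ne_zero).mul hv₂
    rwa [← mul_assoc, inv_mul_cancel₀ hUr₂, one_mul, inv_one, one_mul] at this

end Core

namespace AnnDatum

variable (D : AnnDatum A F F₁ F₂)

theorem sep_iff_sepOn : D.Sep ↔ SepOn D.toNRedDatum D.ann := Iff.rfl

theorem glueAnn_iff_glueOn : D.GlueAnn ↔ GlueOn D.toNRedDatum D.ann := Iff.rfl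

end AnnDatum

/-! ### the pre-annulus datum -/

/-- **The pre-annulus datum**: what the instance supplies.  One thickness constant, one uniform
coordinate, the annulus map; the analytic properties of the coordinate are theorems
(`Ann/Count.lean`). -/
structure PreAnnDatum (A : ValuationSubring L) (F : Type*) [Field F] [Algebra L F]
    [HasPrincipalDivisors L F] (F₁ F₂ : Type*) [Field F₁] [Field F₂]
    [Algebra (IsLocalRing.ResidueField A) F₁] [Algebra (IsLocalRing.ResidueField A) F₂]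
    extends N.NRedDatum A F F₁ F₂ where
  /-- the common thickness constant of the nodes -/
  pi : L
  pi_ne_zero : pi ≠ 0
  pi_lt_one : A.valuation pi < 1
  /-- the uniform coordinate -/
  z : F
  /-- the annulus containing a place -/
  ann : Place L F → Option (Fin nod.s)
  ann_eq_none_iff : ∀ P, ann P = none ↔ r P ≠ none
  /-- the poles of `z` lie on the smooth locus -/
  z_pole : ∀ P : Place L F, P.ord z < 0 → r P ≠ none
  /-- `z` is a `V₁`-unit whose reduction has a simple zero at every node point `x₁ c` -/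
  z_red₁ : nod.V₁.redF z ≠ 0
  z_ord₁ : ∀ c, (nod.x₁ c).ord (nod.V₁.redF z) = 1
  /-- `z' = pi / z` is a `V₂`-unit whose reduction has a simple zero at every node point `x₂ c` -/
  z'_red₂ : nod.V₂.redF (algebraMap L F pi * z⁻¹) ≠ 0
  z'_ord₂ : ∀ c, (nod.x₂ c).ord (nod.V₂.redF (algebraMap L F pi * z⁻¹)) = 1

namespace PreAnnDatum

variable (D : PreAnnDatum A F F₁ F₂)

/-- **(SEP)** for the pre-annulus datum -/
def Sep : Prop := SepOn D.toNRedDatum D.ann

/-- **(GLUE-ann)** for the pre-annulus datum -/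
def GlueAnn : Prop := GlueOn D.toNRedDatum D.ann

theorem glueAnn_of_sep (hS : D.Sep) : D.GlueAnn :=
  glueOn_of_sepOn D.toNRedDatum D.ann D.ann_eq_none_iff hS

/-- the inner coordinate `z' = pi / z` -/
def z' : F := algebraMap L F D.pi * D.z⁻¹

theorem z_mem₁ : D.z ∈ D.nod.V₁.O := D.nod.V₁.mem_of_redF_ne_zero D.z_red₁

theorem z'_mem₂ : D.z' ∈ D.nod.V₂.O := D.nod.V₂.mem_of_redF_ne_zero D.z'_red₂

theorem z_ne_zero : D.z ≠ 0 := by
  intro h
  apply D.z_red₁
  rw [h]
  exact D.nod.V₁.redF_zero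

theorem z'_ne_zero : D.z' ≠ 0 :=
  mul_ne_zero ((map_ne_zero _).2 D.pi_ne_zero) (inv_ne_zero D.z_ne_zero)

theorem pi_mem : D.pi ∈ A := (A.valuation_le_one_iff _).1 D.pi_lt_one.le

/-- `z = pi · z'⁻¹` -/
theorem z_eq : D.z = algebraMap L F D.pi * (D.z')⁻¹ := by
  unfold z'
  rw [mul_inv, inv_inv, ← mul_assoc, mul_inv_cancel₀ ((map_ne_zero _).2 D.pi_ne_zero), one_mul]

theorem z'_inv_mem₂ : (D.z')⁻¹ ∈ D.nod.V₂.O := D.nod.V₂.inv_mem_of_redF_ne_zero D.z'_red₂

/-- `z` is integral on the second component, with reduction `0` -/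
theorem z_mem₂ : D.z ∈ D.nod.V₂.O := by
  rw [D.z_eq]
  exact D.nod.V₂.smul_mem ⟨D.pi, D.pi_mem⟩ D.z'_inv_mem₂

theorem z_red₂ : D.nod.V₂.redF D.z = 0 := by
  have h0 : IsLocalRing.residue A ⟨D.pi, D.pi_mem⟩ = 0 := by
    rw [IsLocalRing.residue_eq_zero_iff, A.valuation_lt_one_iff]
    exact D.pi_lt_one
  have e : D.z = algebraMap L F ((⟨D.pi, D.pi_mem⟩ : A) : L) * (D.z')⁻¹ := D.z_eq
  rw [e, D.nod.V₂.redF_smul _ D.z'_inv_mem₂, h0, zero_smul]

/-- a point of an annulus is not a pole of `z` -/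
theorem ord_z_nonneg {P : Place L F} {c : Fin D.nod.s} (hP : D.ann P = some c) : 0 ≤ P.ord D.z := by
  by_contra hlt
  have h1 := D.z_pole P (not_le.1 hlt)
  have h2 := (D.ann_eq_none_iff P).2 h1
  rw [hP] at h2
  exact Option.some_ne_none c h2

theorem z_regAt {P : Place L F} {c : Fin D.nod.s} (hP : D.ann P = some c) : RegAt P D.z :=
  regAt_iff_ord.2 (D.ord_z_nonneg hP)

/-- the part of `div h` inside the annulus `c` -/
def annDiv (c : Fin D.nod.s) (h : F) : Divisor L F :=
  (divOf (K := L) h).filter fun P => D.ann P = some c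

theorem annDiv_apply_of_mem {c : Fin D.nod.s} {h : F} {P : Place L F} (hP : D.ann P = some c) :
    D.annDiv c h P = P.ord h := by
  unfold annDiv
  rw [Finsupp.filter_apply_pos (fun P => D.ann P = some c) _ hP, divOf_apply']

theorem annDiv_apply_of_not_mem {c : Fin D.nod.s} {h : F} {P : Place L F} (hP : D.ann P ≠ some c) :
    D.annDiv c h P = 0 := by
  unfold annDiv
  rw [Finsupp.filter_apply_neg (fun P => D.ann P = some c) _ hP]

end PreAnnDatum

end Fermat.Agent.S44lib.Ann
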