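/-
S44lib / Ann / Count  (helper9)  — Project LSq, block M1: the annulus datum BY COUNTING

`PreAnnDatum.toAnnDatum : PreAnnDatum → NodalCtx → GlueAnn → dense → AnnDatum`.

* `degree_decomp`        : `deg E = deg push₁ E + deg push₂ E + Σ_c deg (E ∩ annulus c)` for ANY divisor;
* `sum_degree_filter_eq` : **(COUNT)** for `w ≠ 0` with sup-norm constants `a₁`, `a₂` on the components
      `Σ_c deg (div w ∩ annulus c) = Σ_c ord_{x₁ c} red₁ (w / a₁) + Σ_c ord_{x₂ c} red₂ (w / a₂)`
    ((LC) on both components in the form `Kap.sum_ord_nodes`, `deg div w = 0`);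
* for `w = z - t`, `t ∈ L` (`PreAnnDatum.count_far`, `count_mid`):
    the count is `s` if `|pi| < |t| < 1` and `0` otherwise;
* `ord_z_sub_far`        : `z - t` has no zero in any annulus unless `|pi| < |t| < 1`
                           (⟹ `pi_lt_z`, `z_lt_one` : `mid_of_ann`);
* `exists_zero_mid`      : for `|pi| < |t| < 1` every annulus contains a zero of `z - t` (else
                           `z / (z - t)` contradicts (GLUE-ann)) ⟹ `z_surj`;
* `annDeg_mid`           : hence exactly one, and it is simple ⟹ `z_inj`, `z_ord`.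
-/
import Fermat.Agent.S44lib.Ann.Pre
import Fermat.Agent.S44lib.Kap.CMap

set_option autoImplicit false
set_option linter.unusedSectionVars false

noncomputable section

namespace Fermat.Agent.S44lib.Ann

open AlgebraicCurve Fermat.Agent.LSb Fermat.Agent.S18lib Fermat.Agent.S33lib
open Fermat.Agent.S19lib.C Fermat.Agent.S33lib.N

variable {L : Type*} [Field L] {A : ValuationSubring L}
variable {F : Type*} [Field F] [Algebra L F] [HasPrincipalDivisors L F]
variable {F₁ F₂ : Type*} [Field F₁] [Field F₂]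
variable [Algebra (IsLocalRing.ResidueField A) F₁] [Algebra (IsLocalRing.ResidueField A) F₂]

/-! ### finitely supported functions with nonnegative integer values -/

section Fin

variable {ι : Type*}

theorem finsupp_le_sum (E : ι →₀ ℤ) (hE : ∀ i, 0 ≤ E i) (i : ι) : E i ≤ E.sum fun _ n => n := by
  classical
  rw [Finsupp.sum]
  by_cases hi : i ∈ E.support
  · exact Finset.single_le_sum (f := fun k => E k) (fun k _ => hE k) hi
  · rw [Finsupp.notMem_support_iff.1 hi]
    exact Finset.sum_nonneg fun k _ => hE k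

theorem finsupp_sum_nonneg (E : ι →₀ ℤ) (hE : ∀ i, 0 ≤ E i) : 0 ≤ E.sum fun _ n => n := by
  rw [Finsupp.sum]
  exact Finset.sum_nonneg fun k _ => hE k

theorem finsupp_eq_zero_of_sum (E : ι →₀ ℤ) (hE : ∀ i, 0 ≤ E i) (h0 : (E.sum fun _ n => n) = 0)
    (i : ι) : E i = 0 := by
  have := finsupp_le_sum E hE i
  have := hE i
  omega

theorem finsupp_sum_one (E : ι →₀ ℤ) (hE : ∀ i, 0 ≤ E i) (h1 : (E.sum fun _ n => n) = 1) {i j : ι}
    (hi : 0 < E i) (hj : 0 < E j) : i = j ∧ E i = 1 := by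
  classical
  have hi' : i ∈ E.support := Finsupp.mem_support_iff.2 hi.ne'
  have hsplit : E i + ∑ k ∈ E.support.erase i, E k = ∑ k ∈ E.support, E k :=
    Finset.add_sum_erase E.support (fun k => E k) hi'
  rw [Finsupp.sum] at h1
  have hnn : 0 ≤ ∑ k ∈ E.support.erase i, E k := Finset.sum_nonneg fun k _ => hE k
  have hEi : E i = 1 := by
    omega
  refine ⟨?_, hEi⟩
  by_contra hne
  have hj' : j ∈ E.support.erase i :=
    Finset.mem_erase.2 ⟨fun h => hne h.symm, Finsupp.mem_support_iff.2 hj.ne'⟩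
  have hle : E j ≤ ∑ k ∈ E.support.erase i, E k :=
    Finset.single_le_sum (f := fun k => E k) (fun k _ => hE k) hj'
  omega

end Fin

/-! ### degrees -/

theorem degree_eq_sum_of_deg_one (hdeg : ∀ P : Place L F, P.deg = 1) (E : Divisor L F) :
    Divisor.degree E = E.sum fun _ n => n := by
  unfold Divisor.degree
  rw [Finsupp.liftAddHom_apply]
  refine Finsupp.sum_congr fun P _ => ?_
  simp [hdeg P]

/-- **degree decomposition** of an arbitrary divisor: the two smooth loci and the annuli -/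
theorem degree_decomp (D : N.NRedDatum A F F₁ F₂) (ann : Place L F → Option (Fin D.nod.s))
    (hann : ∀ P, ann P = none ↔ D.r P ≠ none) (E : Divisor L F) :
    Divisor.degree E = Divisor.degree (D.push₁ E) + Divisor.degree (D.push₂ E) +
      ∑ c, Divisor.degree (E.filter fun P => ann P = some c) := by
  classical
  induction E using Finsupp.induction_linear with
  | zero => simp [Finsupp.filter_zero]
  | add E E' h h' =>
    simp only [map_add, Finsupp.filter_add, Finset.sum_add_distrib] at h h' ⊢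
    linarith
  | single P n =>
    cases hr : D.r P with
    | none =>
      have hne : ann P ≠ none := fun h0 => (hann P).1 h0 hr
      obtain ⟨c₀, hc₀⟩ := Option.ne_none_iff_exists'.1 hne
      have h1 : fst? D.r P = none := by unfold fst?; rw [hr]; rfl
      have h2 : snd? D.r P = none := by unfold snd?; rw [hr]; rfl
      rw [show D.push₁ (Finsupp.single P n) = 0 from pushO_single_of_none _ h1 n,
        show D.push₂ (Finsupp.single P n) = 0 from pushO_single_of_none _ h2 n, map_zero,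
        map_zero, zero_add, zero_add, Finset.sum_eq_single c₀]
      · rw [Finsupp.filter_single_of_pos (fun P => ann P = some c₀) hc₀]
      · intro c _ hc
        have hneg : ¬ ann P = some c := by
          rw [hc₀]
          exact fun h => hc (Option.some_injective _ h).symm
        rw [Finsupp.filter_single_of_neg (fun P => ann P = some c) hneg, map_zero]
      · intro h
        exact absurd (Finset.mem_univ _) h
    | some q =>
      have hnone : ann P = none := (hann P).2 (by rw [hr]; exact Option.some_ne_none q)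
      have hsum : ∑ c, Divisor.degree ((Finsupp.single P n).filter fun P => ann P = some c) = 0 := by
        refine Finset.sum_eq_zero fun c _ => ?_
        have hneg : ¬ ann P = some c := by
          rw [hnone]
          exact (Option.some_ne_none c).symm
        rw [Finsupp.filter_single_of_neg (fun P => ann P = some c) hneg, map_zero]
      rw [hsum, add_zero]
      exact (NB.degree_push_single D (by rw [hr]; exact Option.some_ne_none q) n).symm

section Count

variable [HasPrincipalDivisors (IsLocalRing.ResidueField A) F₁]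
  [HasPrincipalDivisors (IsLocalRing.ResidueField A) F₂]

/-- **(COUNT)** the number of zeros minus poles in the annuli is the sum of the node orders of the
two normalised reductions -/
theorem sum_degree_filter_eq (D : N.NRedDatum A F F₁ F₂) {g g₁ g₂ : ℕ}
    (C : NodalCtx D.nod g g₁ g₂) (ann : Place L F → Option (Fin D.nod.s))
    (hann : ∀ P, ann P = none ↔ D.r P ≠ none) {w : F} {a₁ a₂ : L} (ha₁ : a₁ ≠ 0) (ha₂ : a₂ ≠ 0)
    (h₁ : D.nod.V₁.redF ((algebraMap L F a₁)⁻¹ * w) ≠ 0)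
    (h₂ : D.nod.V₂.redF ((algebraMap L F a₂)⁻¹ * w) ≠ 0) :
    ∑ c, Divisor.degree ((divOf (K := L) w).filter fun P => ann P = some c) =
      ∑ c, (D.nod.x₁ c).ord (D.nod.V₁.redF ((algebraMap L F a₁)⁻¹ * w)) +
        ∑ c, (D.nod.x₂ c).ord (D.nod.V₂.redF ((algebraMap L F a₂)⁻¹ * w)) := by
  have hz : ∀ a : L, a ≠ 0 → ∀ P : Place L F,
      P.ord ((algebraMap L F a)⁻¹ * w) = ((1 : ℕ) : ℤ) * (divOf (K := L) w) P := by
    intro a ha P
    rw [Nat.cast_one, one_mul, ← map_inv₀, ← divOf_apply', divOf_algebraMap_mul (inv_ne_zero ha)]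
  have e₁ : ∑ c, (D.nod.x₁ c).ord (D.nod.V₁.redF ((algebraMap L F a₁)⁻¹ * w)) =
      -(((1 : ℕ) : ℤ) * Divisor.degree (D.push₁ (divOf (K := L) w))) :=
    Kap.sum_ord_nodes C.hF₁ D.D₁ D.nod.x₁ C.x₁_injective (fun Q hQ => Kap.good₁_of_ne D hQ)
      (Kap.not_good₁ D) (hz a₁ ha₁) h₁
  have e₂ : ∑ c, (D.nod.x₂ c).ord (D.nod.V₂.redF ((algebraMap L F a₂)⁻¹ * w)) =
      -(((1 : ℕ) : ℤ) * Divisor.degree (D.push₂ (divOf (K := L) w))) :=
    Kap.sum_ord_nodes C.hF₂ D.D₂ D.nod.x₂ C.x₂_injective (fun Q hQ => Kap.good₂_of_ne D hQ)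
      (Kap.not_good₂ D) (hz a₂ ha₂) h₂
  have hd := degree_decomp D ann hann (divOf (K := L) w)
  rw [degree_divOf] at hd
  rw [e₁, e₂, Nat.cast_one, one_mul, one_mul]
  linarith

end Count

/-! ### reductions of `u - t` -/

section Gauss

variable {Fk : Type*} [Field Fk] [Algebra (IsLocalRing.ResidueField A) Fk]
variable (G : GaussDatum A F Fk) (x : Place (IsLocalRing.ResidueField A) Fk)

theorem redF_sub_const_of_lt {u : F} (hu : u ∈ G.O) {t : L} (ht : A.valuation t < 1) :
    G.redF (u - algebraMap L F t) = G.redF u := by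
  have hA : t ∈ A := (A.valuation_le_one_iff _).1 ht.le
  rw [G.redF_sub hu (G.algebraMap_mem ⟨t, hA⟩)]
  have : G.redF (algebraMap L F ((⟨t, hA⟩ : A) : L)) = 0 := by
    rw [G.redF_algebraMap_eq_zero_iff, A.valuation_lt_one_iff]
    exact ht
  rw [this, sub_zero]

theorem redF_sub_const {u : F} (hu : u ∈ G.O) {t : L} (hA : t ∈ A) :
    G.redF (u - algebraMap L F t) =
      G.redF u - algebraMap (IsLocalRing.ResidueField A) Fk (IsLocalRing.residue A ⟨t, hA⟩) := by
  rw [G.redF_sub hu (G.algebraMap_mem ⟨t, hA⟩)]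
  have : G.redF (algebraMap L F ((⟨t, hA⟩ : A) : L)) =
      algebraMap (IsLocalRing.ResidueField A) Fk (IsLocalRing.residue A ⟨t, hA⟩) :=
    G.redF_algebraMap ⟨t, hA⟩
  rw [this]

theorem redF_one_sub_smul {v : F} (hv : v ∈ G.O) {b : L} (hb : A.valuation b < 1) :
    G.redF (1 - algebraMap L F b * v) = 1 := by
  have hbA : b ∈ A := (A.valuation_le_one_iff _).1 hb.le
  have hw : algebraMap L F ((⟨b, hbA⟩ : A) : L) * v ∈ G.O := G.smul_mem _ hv
  have hwred : G.redF (algebraMap L F ((⟨b, hbA⟩ : A) : L) * v) = 0 := by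
    rw [G.redF_smul _ hv]
    have : IsLocalRing.residue A ⟨b, hbA⟩ = 0 := by
      rw [IsLocalRing.residue_eq_zero_iff, A.valuation_lt_one_iff]
      exact hb
    rw [this, zero_smul]
  have : G.redF (1 - algebraMap L F ((⟨b, hbA⟩ : A) : L) * v) = 1 := by
    rw [G.redF_sub G.O.one_mem hw, G.redF_one, hwred, sub_zero]
  exact this

/-- a function vanishing at `x` minus a nonzero constant is a unit at `x` -/
theorem ord_sub_const_of_vanish {φ : Fk} (hφ : HasValueAt x φ 0) {β : IsLocalRing.ResidueField A}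
    (hβ : β ≠ 0) :
    φ - algebraMap (IsLocalRing.ResidueField A) Fk β ≠ 0 ∧
      x.ord (φ - algebraMap (IsLocalRing.ResidueField A) Fk β) = 0 := by
  have hv : HasValueAt x (φ - algebraMap (IsLocalRing.ResidueField A) Fk β) (0 - β) :=
    hφ.sub (hasValueAt_const β)
  have hne : (0 : IsLocalRing.ResidueField A) - β ≠ 0 := by
    rw [zero_sub]
    exact neg_ne_zero.2 hβ
  exact ⟨hv.ne_zero hne, hv.ord_eq_zero hne⟩

/-- the inverse of a local parameter at `x` minus a constant has a simple pole at `x` -/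
theorem ord_inv_sub_const {φ : Fk} (hφ0 : φ ≠ 0) (hφ : x.ord φ = 1) (β : IsLocalRing.ResidueField A) :
    φ⁻¹ - algebraMap (IsLocalRing.ResidueField A) Fk β ≠ 0 ∧
      x.ord (φ⁻¹ - algebraMap (IsLocalRing.ResidueField A) Fk β) = -1 := by
  have hφv : HasValueAt x φ 0 := hasValueAt_zero_iff.2 (Or.inr (by rw [hφ]; exact one_pos))
  have hv : HasValueAt x (1 - algebraMap (IsLocalRing.ResidueField A) Fk β * φ) (1 - β * 0) :=
    hasValueAt_one.sub ((hasValueAt_const β).mul hφv)
  have hne : (1 : IsLocalRing.ResidueField A) - β * 0 ≠ 0 := by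
    rw [mul_zero, sub_zero]
    exact one_ne_zero
  have e : φ⁻¹ - algebraMap (IsLocalRing.ResidueField A) Fk β =
      φ⁻¹ * (1 - algebraMap (IsLocalRing.ResidueField A) Fk β * φ) := by
    field_simp
  have h1 := hv.ne_zero hne
  rw [e]
  refine ⟨mul_ne_zero (inv_ne_zero hφ0) h1, ?_⟩
  rw [x.ord_mul (inv_ne_zero hφ0) h1, x.ord_inv, hφ, hv.ord_eq_zero hne, add_zero]

end Gauss

/-! ### the count for `z - t` -/

namespace PreAnnDatum

variable (D : PreAnnDatum A F F₁ F₂)

theorem one_inv_mul (w : F) : (algebraMap L F 1)⁻¹ * w = w := by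
  rw [map_one, inv_one, one_mul]

/-- first component, `|t| < 1` -/
theorem norm₁_lt {t : L} (ht : A.valuation t < 1) :
    D.nod.V₁.redF ((algebraMap L F 1)⁻¹ * (D.z - algebraMap L F t)) ≠ 0 ∧
      ∀ c, (D.nod.x₁ c).ord
        (D.nod.V₁.redF ((algebraMap L F 1)⁻¹ * (D.z - algebraMap L F t))) = 1 := by
  rw [one_inv_mul, redF_sub_const_of_lt D.nod.V₁ D.z_mem₁ ht]
  exact ⟨D.z_red₁, D.z_ord₁⟩

/-- first component, `|t| = 1` -/
theorem norm₁_eq (c₀ : Fin D.nod.s) {t : L} (ht : A.valuation t = 1) :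
    D.nod.V₁.redF ((algebraMap L F 1)⁻¹ * (D.z - algebraMap L F t)) ≠ 0 ∧
      ∀ c, (D.nod.x₁ c).ord
        (D.nod.V₁.redF ((algebraMap L F 1)⁻¹ * (D.z - algebraMap L F t))) = 0 := by
  have hA : t ∈ A := (A.valuation_le_one_iff _).1 ht.le
  have hβ : IsLocalRing.residue A ⟨t, hA⟩ ≠ 0 := AnnDatum.residue_ne_zero_of_val_eq_one hA ht
  rw [one_inv_mul, redF_sub_const D.nod.V₁ D.z_mem₁ hA]
  have hv : ∀ c, HasValueAt (D.nod.x₁ c) (D.nod.V₁.redF D.z) 0 := fun c =>
    hasValueAt_zero_iff.2 (Or.inr (by rw [D.z_ord₁ c]; exact one_pos))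
  exact ⟨(ord_sub_const_of_vanish (D.nod.x₁ c₀) (hv c₀) hβ).1,
    fun c => (ord_sub_const_of_vanish (D.nod.x₁ c) (hv c) hβ).2⟩

/-- first component, `1 < |t|` -/
theorem norm₁_gt {t : L} (ht : 1 < A.valuation t) :
    D.nod.V₁.redF ((algebraMap L F (-t))⁻¹ * (D.z - algebraMap L F t)) ≠ 0 ∧
      ∀ c, (D.nod.x₁ c).ord
        (D.nod.V₁.redF ((algebraMap L F (-t))⁻¹ * (D.z - algebraMap L F t))) = 0 := by
  have ht0 : t ≠ 0 := by
    rintro rfl
    rw [map_zero] at ht
    exact not_lt_zero ht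
  have hb : A.valuation t⁻¹ < 1 := by
    rw [map_inv₀]
    exact inv_lt_one_of_one_lt₀ ht
  have e : (algebraMap L F (-t))⁻¹ * (D.z - algebraMap L F t) = 1 - algebraMap L F t⁻¹ * D.z := by
    have h1 : algebraMap L F t ≠ 0 := (map_ne_zero _).2 ht0
    rw [map_neg, map_inv₀]
    field_simp
    ring
  rw [e, redF_one_sub_smul D.nod.V₁ D.z_mem₁ hb]
  exact ⟨one_ne_zero, fun c => (D.nod.x₁ c).ord_one⟩

theorem z'_red₂' : D.nod.V₂.redF D.z' ≠ 0 := D.z'_red₂

theorem z'_ord₂' (c : Fin D.nod.s) : (D.nod.x₂ c).ord (D.nod.V₂.redF D.z') = 1 := D.z'_ord₂ c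

/-- second component, `|pi| < |t|` -/
theorem norm₂_gt {t : L} (ht : A.valuation D.pi < A.valuation t) :
    D.nod.V₂.redF ((algebraMap L F (-t))⁻¹ * (D.z - algebraMap L F t)) ≠ 0 ∧
      ∀ c, (D.nod.x₂ c).ord
        (D.nod.V₂.redF ((algebraMap L F (-t))⁻¹ * (D.z - algebraMap L F t))) = 0 := by
  have ht0 : t ≠ 0 := by
    rintro rfl
    rw [map_zero] at ht
    exact not_lt_zero ht
  have hva : A.valuation t ≠ 0 := (Valuation.ne_zero_iff _).2 ht0
  have hb1 : A.valuation (D.pi / t) < 1 := by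
    rw [map_div₀]
    exact (div_lt_one₀ (lt_of_le_of_ne zero_le hva.symm)).2 ht
  have e : (algebraMap L F (-t))⁻¹ * (D.z - algebraMap L F t) =
      1 - algebraMap L F (D.pi / t) * (D.z')⁻¹ := by
    unfold z'
    have h1 : algebraMap L F t ≠ 0 := (map_ne_zero _).2 ht0
    have h2 : algebraMap L F D.pi ≠ 0 := (map_ne_zero _).2 D.pi_ne_zero
    have h3 := D.z_ne_zero
    rw [map_neg, map_div₀]
    field_simp
    ring
  rw [e, redF_one_sub_smul D.nod.V₂ D.z'_inv_mem₂ hb1]
  exact ⟨one_ne_zero, fun c => (D.nod.x₂ c).ord_one⟩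

/-- second component, `|t| ≤ |pi|` -/
theorem norm₂_le (c₀ : Fin D.nod.s) {t : L} (ht : A.valuation t ≤ A.valuation D.pi) :
    D.nod.V₂.redF ((algebraMap L F D.pi)⁻¹ * (D.z - algebraMap L F t)) ≠ 0 ∧
      ∀ c, (D.nod.x₂ c).ord
        (D.nod.V₂.redF ((algebraMap L F D.pi)⁻¹ * (D.z - algebraMap L F t))) = -1 := by
  have hvp : A.valuation D.pi ≠ 0 := (Valuation.ne_zero_iff _).2 D.pi_ne_zero
  have hb : A.valuation (t / D.pi) ≤ 1 := by
    rw [map_div₀]
    exact (div_le_one₀ (lt_of_le_of_ne zero_le hvp.symm)).2 ht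
  have hbA : t / D.pi ∈ A := (A.valuation_le_one_iff _).1 hb
  have e : (algebraMap L F D.pi)⁻¹ * (D.z - algebraMap L F t) =
      (D.z')⁻¹ - algebraMap L F (t / D.pi) := by
    unfold z'
    have h2 : algebraMap L F D.pi ≠ 0 := (map_ne_zero _).2 D.pi_ne_zero
    have h3 := D.z_ne_zero
    rw [map_div₀]
    field_simp
  rw [e, redF_sub_const D.nod.V₂ D.z'_inv_mem₂ hbA, D.nod.V₂.redF_inv D.z'_red₂']
  exact ⟨(ord_inv_sub_const (D.nod.x₂ c₀) D.z'_red₂' (D.z'_ord₂' c₀) _).1,
    fun c => (ord_inv_sub_const (D.nod.x₂ c) D.z'_red₂' (D.z'_ord₂' c) _).2⟩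

/-- `z` is not a constant (as soon as there is a node) -/
theorem z_sub_ne_zero (c₀ : Fin D.nod.s) (t : L) : D.z - algebraMap L F t ≠ 0 := by
  intro h0
  by_cases hle : A.valuation t ≤ A.valuation D.pi
  · apply (D.norm₂_le c₀ hle).1
    rw [h0, mul_zero]
    exact D.nod.V₂.redF_zero
  · apply (D.norm₂_gt (not_le.1 hle)).1
    rw [h0, mul_zero]
    exact D.nod.V₂.redF_zero

theorem ord_z_sub_nonneg {P : Place L F} {c : Fin D.nod.s} (hP : D.ann P = some c) (t : L) :
    0 ≤ P.ord (D.z - algebraMap L F t) :=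
  regAt_iff_ord.1 ((D.z_regAt hP).sub (regAt_const t))

theorem annDiv_z_sub_nonneg (c : Fin D.nod.s) (t : L) (P : Place L F) :
    0 ≤ D.annDiv c (D.z - algebraMap L F t) P := by
  by_cases hP : D.ann P = some c
  · rw [D.annDiv_apply_of_mem hP]
    exact D.ord_z_sub_nonneg hP t
  · rw [D.annDiv_apply_of_not_mem hP]

/-- for `|pi| < |t| < 1` every annulus contains a zero of `z - t`: otherwise `z / (z - t)` has the
reductions `1` and `0`, against (GLUE-ann) -/
theorem exists_zero_mid (hG : D.GlueAnn) {t : L} (h1 : A.valuation D.pi < A.valuation t)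
    (h2 : A.valuation t < 1) (c : Fin D.nod.s) :
    ∃ P, D.ann P = some c ∧ 0 < P.ord (D.z - algebraMap L F t) := by
  by_contra hno
  push Not at hno
  have hw0 : D.z - algebraMap L F t ≠ 0 := D.z_sub_ne_zero c t
  have hord : ∀ P, D.ann P = some c → P.ord (D.z - algebraMap L F t) = 0 := fun P hP =>
    le_antisymm (hno P hP) (D.ord_z_sub_nonneg hP t)
  -- the first component
  have hr₁ : D.nod.V₁.redF (D.z - algebraMap L F t) = D.nod.V₁.redF D.z :=
    redF_sub_const_of_lt D.nod.V₁ D.z_mem₁ h2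
  have hwr₁ : D.nod.V₁.redF (D.z - algebraMap L F t) ≠ 0 := by
    rw [hr₁]
    exact D.z_red₁
  have hwi₁ : (D.z - algebraMap L F t)⁻¹ ∈ D.nod.V₁.O := D.nod.V₁.inv_mem_of_redF_ne_zero hwr₁
  have hf₁ : D.z * (D.z - algebraMap L F t)⁻¹ ∈ D.nod.V₁.O :=
    D.nod.V₁.O.mul_mem _ _ D.z_mem₁ hwi₁
  have hfr₁ : D.nod.V₁.redF (D.z * (D.z - algebraMap L F t)⁻¹) = 1 := by
    rw [D.nod.V₁.redF_mul D.z_mem₁ hwi₁, D.nod.V₁.redF_inv hwr₁, hr₁, mul_inv_cancel₀ D.z_red₁]
  -- the second component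
  have ht0 : t ≠ 0 := by
    rintro rfl
    rw [map_zero] at h1
    exact not_lt_zero h1
  have hva : A.valuation t ≠ 0 := (Valuation.ne_zero_iff _).2 ht0
  have hu₂ := (D.norm₂_gt h1).1
  have hui : ((algebraMap L F (-t))⁻¹ * (D.z - algebraMap L F t))⁻¹ ∈ D.nod.V₂.O :=
    D.nod.V₂.inv_mem_of_redF_ne_zero hu₂
  have hb1 : A.valuation (D.pi / -t) < 1 := by
    rw [map_div₀, Valuation.map_neg]
    exact (div_lt_one₀ (lt_of_le_of_ne zero_le hva.symm)).2 h1
  have hbA : D.pi / -t ∈ A := (A.valuation_le_one_iff _).1 hb1.le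
  have hv : algebraMap L F ((⟨D.pi / -t, hbA⟩ : A) : L) * (D.z')⁻¹ ∈ D.nod.V₂.O :=
    D.nod.V₂.smul_mem _ D.z'_inv_mem₂
  have hvred : D.nod.V₂.redF (algebraMap L F ((⟨D.pi / -t, hbA⟩ : A) : L) * (D.z')⁻¹) = 0 := by
    rw [D.nod.V₂.redF_smul _ D.z'_inv_mem₂]
    have : IsLocalRing.residue A ⟨D.pi / -t, hbA⟩ = 0 := by
      rw [IsLocalRing.residue_eq_zero_iff, A.valuation_lt_one_iff]
      exact hb1
    rw [this, zero_smul]
  have ef : D.z * (D.z - algebraMap L F t)⁻¹ =
      algebraMap L F ((⟨D.pi / -t, hbA⟩ : A) : L) * (D.z')⁻¹ *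
        ((algebraMap L F (-t))⁻¹ * (D.z - algebraMap L F t))⁻¹ := by
    show _ = algebraMap L F (D.pi / -t) * (D.z')⁻¹ * _
    unfold z'
    have h1' : algebraMap L F t ≠ 0 := (map_ne_zero _).2 ht0
    have h2' : algebraMap L F D.pi ≠ 0 := (map_ne_zero _).2 D.pi_ne_zero
    have h3' := D.z_ne_zero
    rw [map_div₀, map_neg]
    field_simp
  have hf₂ : D.z * (D.z - algebraMap L F t)⁻¹ ∈ D.nod.V₂.O := by
    rw [ef]
    exact D.nod.V₂.O.mul_mem _ _ hv hui
  have hfr₂ : D.nod.V₂.redF (D.z * (D.z - algebraMap L F t)⁻¹) = 0 := by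
    rw [ef, D.nod.V₂.redF_mul hv hui, hvred, zero_mul]
  obtain ⟨α, hα₁, hα₂⟩ := hG (D.z * (D.z - algebraMap L F t)⁻¹) c hf₁ hf₂ (fun P hP => by
    rw [P.ord_mul D.z_ne_zero (inv_ne_zero hw0), P.ord_inv, hord P hP, neg_zero, add_zero]
    exact D.ord_z_nonneg hP)
  rw [hfr₁] at hα₁
  rw [hfr₂] at hα₂
  have e1 : α = 1 := hα₁.unique hasValueAt_one
  have e0 : α = 0 := hα₂.unique hasValueAt_zero
  exact one_ne_zero (e1.symm.trans e0)

section Count

variable [HasPrincipalDivisors (IsLocalRing.ResidueField A) F₁]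
  [HasPrincipalDivisors (IsLocalRing.ResidueField A) F₂]
variable {g g₁ g₂ : ℕ} (C : NodalCtx D.nod g g₁ g₂)

include C

theorem degree_annDiv (c : Fin D.nod.s) (h : F) :
    Divisor.degree (D.annDiv c h) = (D.annDiv c h).sum fun _ n => n :=
  degree_eq_sum_of_deg_one C.hF.deg_eq_one _

/-- **the count for `|pi| < |t| < 1`** -/
theorem count_mid {t : L} (h1 : A.valuation D.pi < A.valuation t) (h2 : A.valuation t < 1) :
    ∑ c, Divisor.degree (D.annDiv c (D.z - algebraMap L F t)) = D.nod.s := by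
  have ht0 : t ≠ 0 := by
    rintro rfl
    rw [map_zero] at h1
    exact not_lt_zero h1
  obtain ⟨hr₁, ho₁⟩ := D.norm₁_lt h2
  obtain ⟨hr₂, ho₂⟩ := D.norm₂_gt h1
  have := sum_degree_filter_eq D.toNRedDatum C D.ann D.ann_eq_none_iff one_ne_zero
    (neg_ne_zero.2 ht0) hr₁ hr₂
  unfold annDiv
  rw [this, Finset.sum_congr rfl (fun c _ => ho₁ c), Finset.sum_congr rfl (fun c _ => ho₂ c)]
  simp

/-- **the count outside `|pi| < |t| < 1`** -/
theorem count_far (c₀ : Fin D.nod.s) {t : L}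
    (h : ¬ (A.valuation D.pi < A.valuation t ∧ A.valuation t < 1)) :
    ∑ c, Divisor.degree (D.annDiv c (D.z - algebraMap L F t)) = 0 := by
  by_cases hle : A.valuation t ≤ A.valuation D.pi
  · have h2 : A.valuation t < 1 := lt_of_le_of_lt hle D.pi_lt_one
    obtain ⟨hr₁, ho₁⟩ := D.norm₁_lt h2
    obtain ⟨hr₂, ho₂⟩ := D.norm₂_le c₀ hle
    have := sum_degree_filter_eq D.toNRedDatum C D.ann D.ann_eq_none_iff one_ne_zero
      D.pi_ne_zero hr₁ hr₂
    unfold annDiv
    rw [this, Finset.sum_congr rfl (fun c _ => ho₁ c), Finset.sum_congr rfl (fun c _ => ho₂ c)]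
    simp
  · have h1 : A.valuation D.pi < A.valuation t := not_le.1 hle
    have ht0 : t ≠ 0 := by
      rintro rfl
      rw [map_zero] at h1
      exact not_lt_zero h1
    have h2 : ¬ A.valuation t < 1 := fun h' => h ⟨h1, h'⟩
    obtain ⟨hr₂, ho₂⟩ := D.norm₂_gt h1
    rcases eq_or_lt_of_le (not_lt.1 h2) with heq | hgt
    · obtain ⟨hr₁, ho₁⟩ := D.norm₁_eq c₀ heq.symm
      have := sum_degree_filter_eq D.toNRedDatum C D.ann D.ann_eq_none_iff one_ne_zero
        (neg_ne_zero.2 ht0) hr₁ hr₂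
      unfold annDiv
      rw [this, Finset.sum_congr rfl (fun c _ => ho₁ c), Finset.sum_congr rfl (fun c _ => ho₂ c)]
      simp
    · obtain ⟨hr₁, ho₁⟩ := D.norm₁_gt hgt
      have := sum_degree_filter_eq D.toNRedDatum C D.ann D.ann_eq_none_iff (neg_ne_zero.2 ht0)
        (neg_ne_zero.2 ht0) hr₁ hr₂
      unfold annDiv
      rw [this, Finset.sum_congr rfl (fun c _ => ho₁ c), Finset.sum_congr rfl (fun c _ => ho₂ c)]
      simp

/-- outside `|pi| < |t| < 1` the function `z - t` has no zero in any annulus -/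
theorem ord_z_sub_far {t : L} (h : ¬ (A.valuation D.pi < A.valuation t ∧ A.valuation t < 1))
    {P : Place L F} {c : Fin D.nod.s} (hP : D.ann P = some c) :
    P.ord (D.z - algebraMap L F t) = 0 := by
  have hsum := D.count_far C c h
  have hnn : ∀ c', 0 ≤ Divisor.degree (D.annDiv c' (D.z - algebraMap L F t)) := fun c' => by
    rw [D.degree_annDiv C]
    exact finsupp_sum_nonneg _ (D.annDiv_z_sub_nonneg c' t)
  have h0 : Divisor.degree (D.annDiv c (D.z - algebraMap L F t)) = 0 :=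
    (Finset.sum_eq_zero_iff_of_nonneg (fun c' _ => hnn c')).1 hsum c (Finset.mem_univ c)
  rw [D.degree_annDiv C] at h0
  have := finsupp_eq_zero_of_sum _ (D.annDiv_z_sub_nonneg c t) h0 P
  rwa [D.annDiv_apply_of_mem hP] at this

/-- **the radii**: the coordinate of a point of an annulus satisfies `|pi| < |z(P)| < 1` -/
theorem mid_of_ann {P : Place L F} {c : Fin D.nod.s} (hP : D.ann P = some c) :
    A.valuation D.pi < A.valuation (ev P D.z) ∧ A.valuation (ev P D.z) < 1 := by
  by_contra h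
  have h0 := D.ord_z_sub_far C h hP
  rcases vanAt_sub_ev (C.hF.deg_eq_one P) (D.z_regAt hP) with h1 | h1
  · exact D.z_sub_ne_zero c _ h1
  · rw [h0] at h1
    exact lt_irrefl _ h1

/-- **exactly one simple zero** of `z - t` in every annulus, for `|pi| < |t| < 1` -/
theorem annDeg_mid (hG : D.GlueAnn) {t : L} (h1 : A.valuation D.pi < A.valuation t)
    (h2 : A.valuation t < 1) (c : Fin D.nod.s) :
    ((D.annDiv c (D.z - algebraMap L F t)).sum fun _ n => n) = 1 := by
  have hsum := D.count_mid C h1 h2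
  have hge : ∀ c', 1 ≤ Divisor.degree (D.annDiv c' (D.z - algebraMap L F t)) := by
    intro c'
    obtain ⟨P, hP, hpos⟩ := D.exists_zero_mid hG h1 h2 c'
    rw [D.degree_annDiv C]
    have := finsupp_le_sum _ (D.annDiv_z_sub_nonneg c' t) P
    rw [D.annDiv_apply_of_mem hP] at this
    omega
  have h0 : ∑ c', (Divisor.degree (D.annDiv c' (D.z - algebraMap L F t)) - 1) = 0 := by
    rw [Finset.sum_sub_distrib, hsum]
    simp
  have := (Finset.sum_eq_zero_iff_of_nonneg (fun c' _ => by have := hge c'; omega)).1 h0 c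
    (Finset.mem_univ c)
  rw [← D.degree_annDiv C]
  omega

theorem pos_ord_sub_ev {P : Place L F} {c : Fin D.nod.s} (hP : D.ann P = some c) :
    0 < P.ord (D.z - algebraMap L F (ev P D.z)) := by
  rcases vanAt_sub_ev (C.hF.deg_eq_one P) (D.z_regAt hP) with h1 | h1
  · exact absurd h1 (D.z_sub_ne_zero c _)
  · exact h1

theorem z_surj (hG : D.GlueAnn) (c : Fin D.nod.s) (t : L)
    (h1 : A.valuation D.pi < A.valuation t) (h2 : A.valuation t < 1) :
    ∃ P, D.ann P = some c ∧ ev P D.z = t := by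
  obtain ⟨P, hP, hpos⟩ := D.exists_zero_mid hG h1 h2 c
  refine ⟨P, hP, ?_⟩
  have hd := C.hF.deg_eq_one P
  have hreg := D.z_regAt hP
  have h0 : ev P (D.z - algebraMap L F t) = 0 :=
    (ev_eq_zero_iff hd (hreg.sub (regAt_const t))).2 (Or.inr hpos)
  rw [ev_sub hd hreg (regAt_const t), ev_const] at h0
  exact sub_eq_zero.1 h0

theorem z_inj (hG : D.GlueAnn) {P Q : Place L F} {c : Fin D.nod.s} (hP : D.ann P = some c)
    (hQ : D.ann Q = some c) (h : ev P D.z = ev Q D.z) : P = Q := by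
  obtain ⟨h1, h2⟩ := D.mid_of_ann C hP
  have hPpos := D.pos_ord_sub_ev C hP
  have hQpos := D.pos_ord_sub_ev C hQ
  rw [← h] at hQpos
  refine (finsupp_sum_one _ (D.annDiv_z_sub_nonneg c (ev P D.z)) (D.annDeg_mid C hG h1 h2 c)
    (i := P) (j := Q) ?_ ?_).1
  · rw [D.annDiv_apply_of_mem hP]
    exact hPpos
  · rw [D.annDiv_apply_of_mem hQ]
    exact hQpos

theorem z_ord (hG : D.GlueAnn) {P : Place L F} {c : Fin D.nod.s} (hP : D.ann P = some c) :
    P.ord (D.z - algebraMap L F (ev P D.z)) = 1 := by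
  obtain ⟨h1, h2⟩ := D.mid_of_ann C hP
  have hPpos := D.pos_ord_sub_ev C hP
  have := (finsupp_sum_one _ (D.annDiv_z_sub_nonneg c (ev P D.z)) (D.annDeg_mid C hG h1 h2 c)
    (i := P) (j := P) (by rw [D.annDiv_apply_of_mem hP]; exact hPpos)
    (by rw [D.annDiv_apply_of_mem hP]; exact hPpos)).2
  rwa [D.annDiv_apply_of_mem hP] at this

omit C

/-- **the annulus datum of a pre-annulus datum**, by counting -/
def toAnnDatum (C : NodalCtx D.nod g g₁ g₂) (hG : D.GlueAnn)
    (hd : ∀ a b : L, A.valuation a < A.valuation b →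
      ∃ t : L, A.valuation a < A.valuation t ∧ A.valuation t < A.valuation b) :
    AnnDatum A F F₁ F₂ :=
  { D.toNRedDatum with
    pi := fun _ => D.pi
    pi_ne_zero := fun _ => D.pi_ne_zero
    pi_lt_one := fun _ => D.pi_lt_one
    z := fun _ => D.z
    ann := D.ann
    ann_eq_none_iff := D.ann_eq_none_iff
    deg_ann := fun P _ _ => C.hF.deg_eq_one P
    z_regAt := fun _ _ hP => D.z_regAt hP
    pi_lt_z := fun _ _ hP => (D.mid_of_ann C hP).1
    z_lt_one := fun _ _ hP => (D.mid_of_ann C hP).2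
    z_inj := fun _ _ _ hP hQ h => D.z_inj C hG hP hQ h
    z_surj := fun c t h1 h2 => D.z_surj C hG c t h1 h2
    z_ord := fun _ _ hP => D.z_ord C hG hP
    z_mem₁ := fun _ => D.z_mem₁
    z_red₁ := fun _ => D.z_red₁
    z_ord₁ := D.z_ord₁
    z'_mem₂ := fun _ => D.z'_mem₂
    z'_red₂ := fun _ => D.z'_red₂
    z'_ord₂ := D.z'_ord₂
    dense := hd }

theorem toAnnDatum_glueAnn_iff (C : NodalCtx D.nod g g₁ g₂) (hG : D.GlueAnn)
    (hd : ∀ a b : L, A.valuation a < A.valuation b →
      ∃ t : L, A.valuation a < A.valuation t ∧ A.valuation t < A.valuation b) :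
    (D.toAnnDatum C hG hd).GlueAnn ↔ D.GlueAnn := Iff.rfl

theorem toAnnDatum_glueAnn (C : NodalCtx D.nod g g₁ g₂) (hG : D.GlueAnn)
    (hd : ∀ a b : L, A.valuation a < A.valuation b →
      ∃ t : L, A.valuation a < A.valuation t ∧ A.valuation t < A.valuation b) :
    (D.toAnnDatum C hG hd).GlueAnn := hG

/-- hence the slope law holds for the annulus datum of a pre-annulus datum -/
theorem toAnnDatum_slopeLaw (C : NodalCtx D.nod g g₁ g₂) (hG : D.GlueAnn)
    (hd : ∀ a b : L, A.valuation a < A.valuation b →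
      ∃ t : L, A.valuation a < A.valuation t ∧ A.valuation t < A.valuation b) :
    (D.toAnnDatum C hG hd).SlopeLaw :=
  (D.toAnnDatum C hG hd).slopeLaw_of_glueAnn (D.toAnnDatum_glueAnn C hG hd)

end Count

end PreAnnDatum

end Fermat.Agent.S44lib.Ann
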