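/-
S44lib / Ann / OfNCtx  (helper9)  — Project LSq, block M1: the annulus datum of helper6's `NRed.NCtx`

Glue file: helper1's `AnnInst/Node.lean` (the annulus map `annOf`, `annOf_eq_none_iff`, `sep_of_annOf`)
+ `Ann/Pre.lean`, `Ann/Count.lean`.

For `C : NRed.NCtx D Y Y₁ Y₂ g g₁ g₂` and a UNIFORM COORDINATE `h : UnifCoord D (rOf …) ϖ z`:

* `preAnnOfNCtx C h : PreAnnDatum` over `NRed.toNRedDatum C`, with `ann = annOf`;
* `preAnnOfNCtx_sep`, `preAnnOfNCtx_glueAnn` : (SEP) and (GLUE-ann) hold;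
* `annOfNCtx C h Cn hsq : AnnDatum` (`Cn : NodalCtx D g g₁ g₂`, `hsq` : square roots in `L`), with
  `annOfNCtx_toNRedDatum` (`rfl`), `annOfNCtx_glueAnn`, `annOfNCtx_slopeLaw`.

So the ONLY thing the modular instance owes for block M1 is `UnifCoord`: seven facts about one function.
-/
import Fermat.Agent.S44lib.Ann.Count
import Fermat.Agent.S44lib.AnnInst.Node

set_option autoImplicit false
set_option linter.unusedSectionVars false

noncomputable section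

namespace Fermat.Agent.S44lib.Ann

open AlgebraicCurve Fermat.Agent.LSb Fermat.Agent.S18lib Fermat.Agent.S33lib
open Fermat.Agent.S19lib.C Fermat.Agent.S33lib.NRed Fermat.Agent.S44lib.AnnInst

variable {L : Type*} [Field L] {A : ValuationSubring L}
variable {F : Type*} [Field F] [Algebra L F]
variable {F₁ F₂ : Type*} [Field F₁] [Field F₂]
variable [Algebra (IsLocalRing.ResidueField A) F₁] [Algebra (IsLocalRing.ResidueField A) F₂]

/-- **the uniform coordinate**: what the instance owes for the annuli.  `r` is the place map (`none` =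
the place reduces to a node). -/
structure UnifCoord (D : NodalDatum A F F₁ F₂) (r : Place L F → Option (N.Pt A F₁ F₂)) (ϖ : L)
    (z : F) : Prop where
  pi_ne_zero : ϖ ≠ 0
  pi_lt_one : A.valuation ϖ < 1
  /-- the poles of `z` reduce to smooth points -/
  z_pole : ∀ P : Place L F, P.ord z < 0 → r P ≠ none
  z_red₁ : D.V₁.redF z ≠ 0
  z_ord₁ : ∀ c, (D.x₁ c).ord (D.V₁.redF z) = 1
  z'_red₂ : D.V₂.redF (algebraMap L F ϖ * z⁻¹) ≠ 0
  z'_ord₂ : ∀ c, (D.x₂ c).ord (D.V₂.redF (algebraMap L F ϖ * z⁻¹)) = 1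

variable {D : NodalDatum A F F₁ F₂} {Y : Divisor L F}
  {Y₁ : Divisor (IsLocalRing.ResidueField A) F₁} {Y₂ : Divisor (IsLocalRing.ResidueField A) F₂}
  {g g₁ g₂ : ℕ}

section

variable [Infinite (IsLocalRing.ResidueField A)] [HasPrincipalDivisors L F]
variable (C : NCtx D Y Y₁ Y₂ g g₁ g₂) {ϖ : L} {z : F}
  (h : UnifCoord D (rOf D Y Y₁ Y₂ g₁ g₂) ϖ z)

/-- the pre-annulus datum of `NRed.NCtx` and a uniform coordinate -/
def preAnnOfNCtx : PreAnnDatum A F F₁ F₂ :=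
  { toNRedDatum C with
    pi := ϖ
    pi_ne_zero := h.pi_ne_zero
    pi_lt_one := h.pi_lt_one
    z := z
    ann := annOf D Y Y₁ Y₂ g₁ g₂
    ann_eq_none_iff := annOf_eq_none_iff C
    z_pole := h.z_pole
    z_red₁ := h.z_red₁
    z_ord₁ := h.z_ord₁
    z'_red₂ := h.z'_red₂
    z'_ord₂ := h.z'_ord₂ }

theorem preAnnOfNCtx_toNRedDatum : (preAnnOfNCtx C h).toNRedDatum = toNRedDatum C := rfl

theorem preAnnOfNCtx_sep : (preAnnOfNCtx C h).Sep :=
  fun _ _ hcc _ hP => sep_of_annOf C hcc hP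

theorem preAnnOfNCtx_glueAnn : (preAnnOfNCtx C h).GlueAnn :=
  (preAnnOfNCtx C h).glueAnn_of_sep (preAnnOfNCtx_sep C h)

variable [HasPrincipalDivisors (IsLocalRing.ResidueField A) F₁]
  [HasPrincipalDivisors (IsLocalRing.ResidueField A) F₂]

/-- **the annulus datum of `NRed.NCtx` and a uniform coordinate** -/
def annOfNCtx (Cn : NodalCtx D g g₁ g₂) (hsq : ∀ a : L, ∃ b : L, b * b = a) :
    AnnDatum A F F₁ F₂ :=
  (preAnnOfNCtx C h).toAnnDatum Cn (preAnnOfNCtx_glueAnn C h)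
    (dense_of_sqrt hsq h.pi_ne_zero h.pi_lt_one)

theorem annOfNCtx_toNRedDatum (Cn : NodalCtx D g g₁ g₂) (hsq : ∀ a : L, ∃ b : L, b * b = a) :
    (annOfNCtx C h Cn hsq).toNRedDatum = toNRedDatum C := rfl

theorem annOfNCtx_ann (Cn : NodalCtx D g g₁ g₂) (hsq : ∀ a : L, ∃ b : L, b * b = a) :
    (annOfNCtx C h Cn hsq).ann = annOf D Y Y₁ Y₂ g₁ g₂ := rfl

theorem annOfNCtx_z (Cn : NodalCtx D g g₁ g₂) (hsq : ∀ a : L, ∃ b : L, b * b = a)
    (c : Fin D.s) : (annOfNCtx C h Cn hsq).z c = z := rfl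

theorem annOfNCtx_pi (Cn : NodalCtx D g g₁ g₂) (hsq : ∀ a : L, ∃ b : L, b * b = a)
    (c : Fin D.s) : (annOfNCtx C h Cn hsq).pi c = ϖ := rfl

theorem annOfNCtx_glueAnn (Cn : NodalCtx D g g₁ g₂) (hsq : ∀ a : L, ∃ b : L, b * b = a) :
    (annOfNCtx C h Cn hsq).GlueAnn :=
  (preAnnOfNCtx C h).toAnnDatum_glueAnn Cn (preAnnOfNCtx_glueAnn C h) _

theorem annOfNCtx_slopeLaw (Cn : NodalCtx D g g₁ g₂) (hsq : ∀ a : L, ∃ b : L, b * b = a) :
    (annOfNCtx C h Cn hsq).SlopeLaw :=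
  (preAnnOfNCtx C h).toAnnDatum_slopeLaw Cn (preAnnOfNCtx_glueAnn C h) _

end

end Fermat.Agent.S44lib.Ann
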