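/-
S44lib / Ann / AnnSmul  (helper9)  — Project LSq, block M1: inertia invariance of the annulus map

For helper7's `M.AnnSym.ann_smul`: an automorphism `σ` which is inertial for the nodal datum
(`D.IsInertial σ`) and fixes the frame divisor `Y` does not change the annulus of a place:

* `nodeRedAt_smul_iff`, `smoothRed_smul_iff`, `nodeOf_smul_iff`;
* `annOf_smul`          : `annOf (σ • P) = annOf P`                       (helper1's `annOf`);
* `annOfNCtx_ann_smul`  : the same for the annulus datum `annOfNCtx C.toNCtx h C hsq` of an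
                          `LSb.NodalCtx` (frame `D.chartDiv 1 1`, fixed by every inertial `σ`).
-/
import Fermat.Agent.S44lib.Ann.OfNCtx
import Fermat.Agent.S33lib.NRed.Equivar

set_option autoImplicit false
set_option linter.unusedSectionVars false

noncomputable section

namespace Fermat.Agent.S44lib.Ann

open AlgebraicCurve Fermat.Agent.LSb Fermat.Agent.S18lib Fermat.Agent.S33lib
open Fermat.Agent.S19lib.C Fermat.Agent.S33lib.NRed Fermat.Agent.S44lib.AnnInst

variable {L : Type*} [Field L] {A : ValuationSubring L}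
variable {F : Type*} [Field F] [Algebra L F]
variable {F₁ F₂ : Type*} [Field F₁] [Field F₂]
variable [Algebra (IsLocalRing.ResidueField A) F₁] [Algebra (IsLocalRing.ResidueField A) F₂]

variable {D : NodalDatum A F F₁ F₂} {Y : Divisor L F}
  {Y₁ : Divisor (IsLocalRing.ResidueField A) F₁} {Y₂ : Divisor (IsLocalRing.ResidueField A) F₂}
  {g g₁ g₂ : ℕ}

theorem nodeRedAt_smul_iff {σ : SemilinearAut L F} (hσ : D.IsInertial σ) (hY : σ • Y = Y)
    (P : Place L F) (n : ℕ) (c : Fin D.s) :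
    NodeRedAt D Y n (σ • P) c ↔ NodeRedAt D Y n P c := by
  unfold NodeRedAt
  rw [redSub_frame_smul hσ hY P n]

theorem smoothRed_smul_iff (C : NCtx D Y Y₁ Y₂ g g₁ g₂) {σ : SemilinearAut L F}
    (hσ : D.IsInertial σ) (hY : σ • Y = Y) (P : Place L F) :
    SmoothRed D Y Y₁ Y₂ g₁ g₂ (σ • P) ↔ SmoothRed D Y Y₁ Y₂ g₁ g₂ P :=
  ⟨fun ⟨q, hq⟩ => ⟨q, (redTo_smul_iff C hσ hY P q).1 hq⟩,
    fun ⟨q, hq⟩ => ⟨q, (redTo_smul_iff C hσ hY P q).2 hq⟩⟩

theorem nodeOf_smul_iff (C : NCtx D Y Y₁ Y₂ g g₁ g₂) {σ : SemilinearAut L F}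
    (hσ : D.IsInertial σ) (hY : σ • Y = Y) (P : Place L F) (c : Fin D.s) :
    NodeOf D Y Y₁ Y₂ g₁ g₂ (σ • P) c ↔ NodeOf D Y Y₁ Y₂ g₁ g₂ P c := by
  unfold NodeOf
  rw [smoothRed_smul_iff C hσ hY P]
  exact and_congr Iff.rfl
    (forall_congr' fun n => imp_congr Iff.rfl (nodeRedAt_smul_iff hσ hY P n c))

/-- **the annulus map is invariant under inertial automorphisms fixing the frame** -/
theorem annOf_smul [Infinite (IsLocalRing.ResidueField A)] (C : NCtx D Y Y₁ Y₂ g g₁ g₂)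
    {σ : SemilinearAut L F} (hσ : D.IsInertial σ) (hY : σ • Y = Y) (P : Place L F) :
    annOf D Y Y₁ Y₂ g₁ g₂ (σ • P) = annOf D Y Y₁ Y₂ g₁ g₂ P := by
  cases h : annOf D Y Y₁ Y₂ g₁ g₂ P with
  | none =>
    rw [annOf_eq_none_iff_smoothRed C] at h ⊢
    exact (smoothRed_smul_iff C hσ hY P).2 h
  | some c =>
    rw [annOf_eq_some_iff C] at h ⊢
    exact (nodeOf_smul_iff C hσ hY P c).2 h

/-- the instance form: the annulus map of the annulus datum of an `LSb.NodalCtx` is invariant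
under every inertial automorphism -/
theorem annOfNCtx_ann_smul [Infinite (IsLocalRing.ResidueField A)] [HasPrincipalDivisors L F]
    [HasPrincipalDivisors (IsLocalRing.ResidueField A) F₁]
    [HasPrincipalDivisors (IsLocalRing.ResidueField A) F₂]
    (Cn : NodalCtx D g g₁ g₂) {ϖ : L} {z : F}
    (h : UnifCoord D (rOf D (D.chartDiv 1 1) (D.chartDiv₁ 1 1) (D.chartDiv₂ 1 1) g₁ g₂) ϖ z)
    (hsq : ∀ a : L, ∃ b : L, b * b = a)
    {σ : SemilinearAut L F} (hσ : D.IsInertial σ) (P : Place L F) :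
    (annOfNCtx Cn.toNCtx h Cn hsq).ann (σ • P) = (annOfNCtx Cn.toNCtx h Cn hsq).ann P :=
  annOf_smul Cn.toNCtx hσ (hσ.smul_chartDiv 1 1) P

end Fermat.Agent.S44lib.Ann
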